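/-
S35 / Program T, leaf NAT (helper22), file 1: ABSTRACT ALGEBRA (Mathlib only, prefix `s35nat`).

* `s35nat_norm_eq_prod` : `L / K` finite separable, `σ_i : L →+* Ω` pairwise distinct ring
  homomorphisms into a field with a common restriction `κ` to `K`, at least `[L : K]` of them:
  then `κ (N_{L/K} y) = ∏ i, σ_i y`.
* `s35nat_norm_comp_equiv` : the norm along `ψ = e ∘ φ` (`e` a ring automorphism of `L`) is the norm
  along `φ` after applying `e⁻¹`.
-/
import Mathlib

set_option autoImplicit false

noncomputable section

namespace Fermat.Agent.S35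

open Module

/-- **norm = product of the conjugates.**  If `σ_i : L →+* Ω` are pairwise distinct, agree with
`κ` on `K`, and there are at least `[L : K]` of them, then `κ (N y) = ∏ i, σ_i y`. -/
theorem s35nat_norm_eq_prod {K L Ω ι : Type*} [Field K] [Field L] [Field Ω] [Algebra K L]
    [FiniteDimensional K L] [Algebra.IsSeparable K L] [Fintype ι]
    (κ : K →+* Ω) (σ : ι → L →+* Ω) (hσ : ∀ i k, σ i (algebraMap K L k) = κ k)
    (hinj : Function.Injective σ) (hcard : finrank K L ≤ Fintype.card ι) (y : L) :
    κ (Algebra.norm K y) = ∏ i, σ i y := by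
  classical
  let E := AlgebraicClosure Ω
  letI : Algebra K E := ((algebraMap Ω E).comp κ).toAlgebra
  let τ : ι → (L →ₐ[K] E) := fun i =>
    { (algebraMap Ω E).comp (σ i) with
      commutes' := fun k => by
        show algebraMap Ω E (σ i (algebraMap K L k)) = algebraMap Ω E (κ k)
        rw [hσ] }
  have hτ : Function.Injective τ := by
    intro i j hij
    apply hinj
    ext x
    have h1 := congrArg (fun f : L →ₐ[K] E => f x) hij
    exact (algebraMap Ω E).injective h1
  have hτb : Function.Bijective τ := by
    rw [Fintype.bijective_iff_injective_and_card]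
    refine ⟨hτ, le_antisymm (Fintype.card_le_of_injective τ hτ) ?_⟩
    rw [AlgHom.card K L E]
    exact hcard
  have h1 := Algebra.norm_eq_prod_embeddings K E y
  have h2 : ∏ f : L →ₐ[K] E, f y = ∏ i, τ i y :=
    (Fintype.prod_equiv (Equiv.ofBijective τ hτb) (fun i => τ i y) (fun f => f y)
      (fun i => rfl)).symm
  rw [h2] at h1
  have h3 : ∏ i, τ i y = algebraMap Ω E (∏ i, σ i y) := by
    rw [map_prod]
    rfl
  rw [h3] at h1
  exact (algebraMap Ω E).injective h1

/-- the norm does not change under a ring automorphism of the top field compatible with the two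
algebra structures: if `e ∘ φ = ψ` then `N_ψ (e x) = N_φ x`. -/
theorem s35nat_norm_comp_equiv {K L : Type*} [Field K] [Field L] (φ ψ : K →+* L) (e : L ≃+* L)
    (he : ∀ k, e (φ k) = ψ k) (x : L) :
    @Algebra.norm K L _ _ ψ.toAlgebra (e x) = @Algebra.norm K L _ _ φ.toAlgebra x := by
  have h := @Algebra.norm_eq_of_equiv_equiv K L K L _ _ _ _ φ.toAlgebra ψ.toAlgebra
    (RingEquiv.refl K) e (by
      ext k
      exact (he k).symm) x
  rw [h]
  rfl

end Fermat.Agent.S35
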