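/-
S35 / Program T, leaf NAT (helper22), file 2: THE TRANSFER (Mathlib only, prefix `s35nat`).

`Γ' ≤ Γ` subgroups of a group `𝔾`, `Γ'` of finite index in `Γ`; `Q := Γ ⧸ Γ'` (left cosets),
`ξ.out` the chosen representatives.

* `s35natCoc h γ ξ : Γ'`, `= (ξ.out)⁻¹ γ (γ⁻¹ ξ).out`, the cocycle;
* `s35natTransfer h χ : Γ →* A`, `γ ↦ ∏ ξ, χ (coc γ ξ)`, the transfer of a character `χ : Γ' →* A`;
* `s35nat_smul_prod` : if `𝔾` acts on a commutative ring `R`, `c⁻¹ • H = χ c * H` for `c ∈ Γ'` with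
  invariant constants `χ c`, then `γ⁻¹ • ∏ ξ, ξ.out • H = transfer χ γ * ∏ ξ, ξ.out • H` for `γ ∈ Γ`;
* `s35nat_smul_prod_inv` : the case `χ = 1` (the product of the conjugates is `Γ`-invariant).
-/
import Mathlib

set_option autoImplicit false

noncomputable section

namespace Fermat.Agent.S35

variable {𝔾 : Type*} [Group 𝔾] {Γ' Γ : Subgroup 𝔾}

/-- the coset space `Γ / Γ'`. -/
abbrev S35natQ (Γ' Γ : Subgroup 𝔾) : Type _ := ↥Γ ⧸ Γ'.subgroupOf Γ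

theorem s35nat_coc_mem (γ : ↥Γ) (ξ : S35natQ Γ' Γ) :
    ((ξ.out : ↥Γ) : 𝔾)⁻¹ * (γ : 𝔾) * (((γ⁻¹ • ξ : S35natQ Γ' Γ).out : ↥Γ) : 𝔾) ∈ Γ' := by
  have h1 : (QuotientGroup.mk (γ⁻¹ * ξ.out) : S35natQ Γ' Γ) =
      QuotientGroup.mk ((γ⁻¹ • ξ : S35natQ Γ' Γ).out) := by
    rw [QuotientGroup.out_eq']
    conv_rhs => rw [← QuotientGroup.out_eq' ξ]
    rfl
  rw [QuotientGroup.eq, Subgroup.mem_subgroupOf] at h1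
  have h2 : (((γ⁻¹ * ξ.out)⁻¹ * (γ⁻¹ • ξ : S35natQ Γ' Γ).out : ↥Γ) : 𝔾) =
      ((ξ.out : ↥Γ) : 𝔾)⁻¹ * (γ : 𝔾) * (((γ⁻¹ • ξ : S35natQ Γ' Γ).out : ↥Γ) : 𝔾) := by
    push_cast
    group
  rw [h2] at h1
  exact h1

/-- the cocycle `(ξ.out)⁻¹ γ (γ⁻¹ ξ).out ∈ Γ'`. -/
def s35natCoc (γ : ↥Γ) (ξ : S35natQ Γ' Γ) : ↥Γ' :=
  ⟨((ξ.out : ↥Γ) : 𝔾)⁻¹ * (γ : 𝔾) * (((γ⁻¹ • ξ : S35natQ Γ' Γ).out : ↥Γ) : 𝔾),
    s35nat_coc_mem γ ξ⟩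

theorem s35natCoc_coe (γ : ↥Γ) (ξ : S35natQ Γ' Γ) :
    ((s35natCoc γ ξ : ↥Γ') : 𝔾) =
      ((ξ.out : ↥Γ) : 𝔾)⁻¹ * (γ : 𝔾) * (((γ⁻¹ • ξ : S35natQ Γ' Γ).out : ↥Γ) : 𝔾) := rfl

theorem s35natCoc_mul (γ δ : ↥Γ) (ξ : S35natQ Γ' Γ) :
    s35natCoc (γ * δ) ξ = s35natCoc γ ξ * s35natCoc δ (γ⁻¹ • ξ) := by
  apply Subtype.ext
  rw [Subgroup.coe_mul, s35natCoc_coe, s35natCoc_coe, s35natCoc_coe]
  have h : ((γ * δ)⁻¹ • ξ : S35natQ Γ' Γ) = δ⁻¹ • (γ⁻¹ • ξ) := by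
    rw [mul_inv_rev, mul_smul]
  rw [h, Subgroup.coe_mul]
  group

theorem s35natCoc_one (ξ : S35natQ Γ' Γ) : s35natCoc (1 : ↥Γ) ξ = 1 := by
  apply Subtype.ext
  rw [s35natCoc_coe]
  have h : ((1 : ↥Γ)⁻¹ • ξ : S35natQ Γ' Γ) = ξ := by rw [inv_one, one_smul]
  rw [h]
  simp

/-- `γ⁻¹ ξ.out = (γ⁻¹ ξ).out * (coc γ ξ)⁻¹`. -/
theorem s35nat_inv_mul_out (γ : ↥Γ) (ξ : S35natQ Γ' Γ) :
    (γ : 𝔾)⁻¹ * ((ξ.out : ↥Γ) : 𝔾) =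
      (((γ⁻¹ • ξ : S35natQ Γ' Γ).out : ↥Γ) : 𝔾) * ((s35natCoc γ ξ : ↥Γ') : 𝔾)⁻¹ := by
  rw [s35natCoc_coe]
  group

section Transfer

variable [Fintype (S35natQ Γ' Γ)] {A : Type*} [CommGroup A]

/-- THE TRANSFER of a character of `Γ'` to `Γ`: `γ ↦ ∏ ξ, χ ((ξ.out)⁻¹ γ (γ⁻¹ ξ).out)`. -/
def s35natTransfer (χ : ↥Γ' →* A) : ↥Γ →* A where
  toFun γ := ∏ ξ : S35natQ Γ' Γ, χ (s35natCoc γ ξ)
  map_one' := by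
    simp [s35natCoc_one]
  map_mul' γ δ := by
    simp only [s35natCoc_mul, map_mul, Finset.prod_mul_distrib]
    congr 1
    exact Fintype.prod_equiv (MulAction.toPerm (γ⁻¹ : ↥Γ)) _ _ fun ξ => rfl

theorem s35natTransfer_apply (χ : ↥Γ' →* A) (γ : ↥Γ) :
    s35natTransfer χ γ = ∏ ξ : S35natQ Γ' Γ, χ (s35natCoc γ ξ) := rfl

theorem s35natTransfer_one : s35natTransfer (1 : ↥Γ' →* A) = (1 : ↥Γ →* A) := by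
  ext γ
  simp [s35natTransfer_apply]

theorem s35natTransfer_mul (χ χ' : ↥Γ' →* A) :
    s35natTransfer (χ * χ') = (s35natTransfer χ * s35natTransfer χ' : ↥Γ →* A) := by
  ext γ
  simp [s35natTransfer_apply, Finset.prod_mul_distrib]

end Transfer

section Action

variable [Fintype (S35natQ Γ' Γ)] {R : Type*} [CommRing R] [MulSemiringAction 𝔾 R]

/-- **the multiplier of the product of the conjugates is the transfer.** -/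
theorem s35nat_smul_prod (χ : ↥Γ' →* Rˣ) (hχ : ∀ (g : 𝔾) (c : ↥Γ'), g • ((χ c : Rˣ) : R) = χ c)
    (H : R) (hH : ∀ c : ↥Γ', ((c : 𝔾)⁻¹) • H = ((χ c : Rˣ) : R) * H) (γ : ↥Γ) :
    ((γ : 𝔾)⁻¹) • (∏ ξ : S35natQ Γ' Γ, ((ξ.out : ↥Γ) : 𝔾) • H) =
      ((s35natTransfer χ γ : Rˣ) : R) * ∏ ξ : S35natQ Γ' Γ, ((ξ.out : ↥Γ) : 𝔾) • H := by
  rw [Finset.smul_prod']
  have h1 : ∀ ξ : S35natQ Γ' Γ, ((γ : 𝔾)⁻¹) • (((ξ.out : ↥Γ) : 𝔾) • H) =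
      ((χ (s35natCoc γ ξ) : Rˣ) : R) *
        ((((γ⁻¹ • ξ : S35natQ Γ' Γ).out : ↥Γ) : 𝔾) • H) := by
    intro ξ
    rw [← mul_smul, s35nat_inv_mul_out, mul_smul, hH, smul_mul', hχ]
  rw [Finset.prod_congr rfl fun ξ _ => h1 ξ, Finset.prod_mul_distrib, s35natTransfer_apply,
    Units.coe_prod]
  congr 1
  exact Fintype.prod_equiv (MulAction.toPerm (γ⁻¹ : ↥Γ))
    (fun ξ => (((γ⁻¹ • ξ : S35natQ Γ' Γ).out : ↥Γ) : 𝔾) • H)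
    (fun ξ => ((ξ.out : ↥Γ) : 𝔾) • H) fun ξ => rfl

/-- the product of the conjugates of a `Γ'`-invariant element is `Γ`-invariant. -/
theorem s35nat_smul_prod_inv (H : R) (hH : ∀ c : ↥Γ', (c : 𝔾) • H = H) (γ : ↥Γ) :
    (γ : 𝔾) • (∏ ξ : S35natQ Γ' Γ, ((ξ.out : ↥Γ) : 𝔾) • H) =
      ∏ ξ : S35natQ Γ' Γ, ((ξ.out : ↥Γ) : 𝔾) • H := by
  have h := s35nat_smul_prod (Γ' := Γ') (Γ := Γ) (1 : ↥Γ' →* Rˣ) (fun g c => by simp) H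
    (fun c => by
      have := hH c⁻¹
      simpa using this) γ⁻¹
  simpa [s35natTransfer_one] using h

end Action

end Fermat.Agent.S35
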