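/-
S35 / Program T, leaf NAT (helper22), file 3: THE ANALYTIC NORM ALONG `α` (over `ℂ`).

`M, q` arbitrary (`q ≠ 0`), `N = M * q`, `α = heckeAlphaBar ℂ M q : F_ℂ(M) ⊂ F_ℂ(N)`,
`Q = Γ₀(M) / Γ₀(N)` with representatives `ξ.out`.

* `s35nat_hasCuspExp_cuspEmb` : if `y ∈ F_ℂ(N)` is the holomorphic function `G` then `g • G` has the
  expansion `gfc_cuspEmb N g y` in `exp(2πiτ/N)`, for every `g ∈ SL₂(ℤ)`;
* `s35nat_finrank_alpha` : `[F_ℂ(N) : F_ℂ(M)] = #Q`;
* `s35nat_norm_hol` : **the norm `N_α y` is the holomorphic function `∏ ξ, ξ.out • G`.**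
* `s35nat_prod_mult` : if `H` has multiplier `χ` on `Γ₀(N)` then `∏ ξ, ξ.out • H` has multiplier
  `s35natTransfer χ` on `Γ₀(M)`.
-/
import Fermat.Agent.G.Kum.Main
import Fermat.Agent.G.FC.EmbCusp
import Fermat.Agent.G.Conj.Deg
import Fermat.Agent.G.FF.Hecke
import Fermat.Agent.S35.Nat.Abs
import Fermat.Agent.S35.Nat.Transfer

set_option autoImplicit false
set_option linter.unusedSectionVars false
set_option linter.unusedVariables false
set_option linter.style.haveILetI false

noncomputable section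

namespace Fermat.Agent.S35

open UpperHalfPlane ModularCurve AlgebraicCurve CongruenceSubgroup Fermat.Agent.S24
  Fermat.Agent.G IntermediateField
open scoped MatrixGroups Manifold ModularForm Real

/-! ### expansions of the translates of a holomorphic element of the function field -/

section CuspEmb

variable {N : ℕ} [NeZero N]

theorem s35nat_coeffMap_iota (S : LaurentSeries ℂ) : coeffMap gfcIota S = S := coeffMap_id S

/-- **(E1)** if `y ∈ F_ℂ(N)` is the holomorphic function `G` then `g • G` has the expansion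
`gfc_cuspEmb N g y` in `exp(2πiτ/N)`. -/
theorem s35nat_hasCuspExp_cuspEmb {y : gfcField N} {G : HolRing}
    (hG : HasCuspExp 1 (G : ℍ → ℂ) ((y : gfcField N) : LaurentSeries ℂ)) (g : SL(2, ℤ)) :
    HasCuspExp N ((g • G : HolRing) : ℍ → ℂ) (gfc_cuspEmb N g y) := by
  obtain ⟨a, s, hs, hys⟩ := gkma_exists_frac y
  have h1 : G * gfc_toHol N s = gfc_toHol N a := gkma_mul_toHol hG hys
  have h2 : (g • G : HolRing) * (g • gfc_toHol N s) = g • gfc_toHol N a := by
    rw [← smul_mul', h1]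
  obtain ⟨h', hh', S, hS⟩ := gkm_hol_cusp hG g
  have hs' : HasCuspExp N ((g • gfc_toHol N s : HolRing) : ℍ → ℂ) (gfc_cuspEmb N g (s : gfcField N)) := by
    rw [gfc_cuspEmb_coe]
    exact gfc_hasCuspExp_cuspHom N g s
  have ha' : HasCuspExp N ((g • gfc_toHol N a : HolRing) : ℍ → ℂ) (gfc_cuspEmb N g (a : gfcField N)) := by
    rw [gfc_cuspEmb_coe]
    exact gfc_hasCuspExp_cuspHom N g a
  -- everything in the width `N * h'`
  have e1 := hs'.qExpand h'
  have e2 := ha'.qExpand h'
  have e3 := hS.qExpand N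
  rw [mul_comm h' N] at e3
  have e4 : HasCuspExp (N * h') (((g • G : HolRing) * (g • gfc_toHol N s) : HolRing) : ℍ → ℂ)
      (qExpand ℂ N S * qExpand ℂ h' (gfc_cuspEmb N g (s : gfcField N))) := e3.mul e1
  rw [h2] at e4
  have e5 := e4.unique e2
  -- `cuspEmb g y = cuspEmb g a / cuspEmb g s`
  have hs0 : (s : gfcField N) ≠ 0 := fun h0 => hs (Subtype.ext h0)
  have hs0' : gfc_cuspEmb N g (s : gfcField N) ≠ 0 :=
    (map_ne_zero (gfc_cuspEmb N g)).mpr hs0
  have hs0'' : qExpand ℂ h' (gfc_cuspEmb N g (s : gfcField N)) ≠ 0 :=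
    (map_ne_zero_iff _ (qExpand ℂ h').injective).mpr hs0'
  have e6 : gfc_cuspEmb N g y * gfc_cuspEmb N g (s : gfcField N) =
      gfc_cuspEmb N g (a : gfcField N) := by
    rw [← map_mul, hys]
  have e7 : qExpand ℂ N S = qExpand ℂ h' (gfc_cuspEmb N g y) := by
    apply mul_right_cancel₀ hs0''
    rw [e5, ← map_mul, e6]
  rw [e7] at e3
  exact (cuspExp_qExpand_iff h').1 e3

end CuspEmb

/-! ### the setting `Γ₀(M q) ≤ Γ₀(M)` -/

section Setting

variable (M q : ℕ) [NeZero M] [NeZero q]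

theorem s35nat_Gamma0_le : Gamma0 (M * q) ≤ Gamma0 M := by
  intro γ hγ
  rw [Gamma0_mem] at hγ ⊢
  rw [ZMod.intCast_zmod_eq_zero_iff_dvd] at hγ ⊢
  exact dvd_trans (by push_cast; exact dvd_mul_right _ _) hγ

instance s35natFintypeQ : Fintype (S35natQ (Gamma0 (M * q)) (Gamma0 M)) :=
  Fintype.ofFinite _

/-- **(E2)** on `F_ℂ(M)` all the embeddings `gfc_cuspEmb (M q) g`, `g ∈ Γ₀(M)`, are `qExpand`. -/
theorem s35nat_cuspEmb_alpha (g : SL(2, ℤ)) (hg : g ∈ Gamma0 M) (k : gfcField M) :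
    gfc_cuspEmb (M * q) g (heckeAlphaBar ℂ M q k) =
      qExpand ℂ (M * q) ((k : gfcField M) : LaurentSeries ℂ) := by
  have key : (gfc_cuspEmb (M * q) g).comp (heckeAlphaBar ℂ M q).toRingHom =
      (qExpand ℂ (M * q)).comp (gfcField M).val.toRingHom := by
    refine gfc_embcusp_ringHom_ext M fun x => ?_
    show gfc_cuspEmb (M * q) g (heckeAlphaBar ℂ M q (x : gfcField M)) =
      qExpand ℂ (M * q) (((x : gfcField M)) : LaurentSeries ℂ)
    have hF : HasCuspExp 1 (gfc_toHol M x : ℍ → ℂ)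
        (((heckeAlphaBar ℂ M q (x : gfcField M) : gfcField (M * q))) : LaurentSeries ℂ) := by
      rw [coe_heckeAlphaBar]
      exact gkma_hasCuspExp_toHol x
    have h1 := s35nat_hasCuspExp_cuspEmb hF g
    rw [gfc_smul_toHol_of_mem_Gamma0 M g hg x] at h1
    have h2 := (gkma_hasCuspExp_toHol x).qExpand (M * q)
    rw [one_mul] at h2
    exact h1.unique h2
  exact RingHom.congr_fun key k

/-- the embeddings attached to the cosets. -/
def s35natSigma (ξ : S35natQ (Gamma0 (M * q)) (Gamma0 M)) :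
    gfcField (M * q) →+* LaurentSeries ℂ :=
  gfc_cuspEmb (M * q) ((ξ.out : Gamma0 M) : SL(2, ℤ))

/-- **(E3)** distinct cosets give distinct embeddings. -/
theorem s35natSigma_injective : Function.Injective (s35natSigma M q) := by
  intro ξ ξ' h
  have h1 := gfc_mem_Gamma0_of_cuspEmb_eq (M * q) _ _ h
  rw [← QuotientGroup.out_eq' ξ, ← QuotientGroup.out_eq' ξ', QuotientGroup.eq,
    Subgroup.mem_subgroupOf]
  exact h1

/-- **(E4)** `[F_ℂ(M q) : F_ℂ(M)] = [Γ₀(M) : Γ₀(M q)]`. -/
theorem s35nat_finrank_alpha :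
    letI := algebraAlong (heckeAlphaBar ℂ M q)
    Module.finrank (gfcField M) (gfcField (M * q)) =
      Fintype.card (S35natQ (Gamma0 (M * q)) (Gamma0 M)) := by
  letI := algebraAlong (heckeAlphaBar ℂ M q)
  have hα : heckeAlphaBar ℂ M q (gfc_jBar M) = gfc_jBar (M * q) := Subtype.ext rfl
  have htower := gcjd_finrank_tower (heckeAlphaBar ℂ M q) (gfc_jBar M) (gfc_jBar (M * q)) hα
  rw [gfc_finrank_jBar M, gfc_finrank_jBar (M * q)] at htower
  have hidx := Subgroup.relIndex_mul_index (s35nat_Gamma0_le M q)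
  have e1 : Nat.card (SL(2, ℤ) ⧸ Gamma0 M) = (Gamma0 M).index := rfl
  have e2 : Nat.card (SL(2, ℤ) ⧸ Gamma0 (M * q)) = (Gamma0 (M * q)).index := rfl
  have e3 : (Gamma0 (M * q)).relIndex (Gamma0 M) =
      Fintype.card (S35natQ (Gamma0 (M * q)) (Gamma0 M)) := by
    rw [← Nat.card_eq_fintype_card]
    rfl
  rw [e1, e2, ← hidx, e3, mul_comm] at htower
  have hpos : 0 < (Gamma0 M).index := Nat.pos_of_ne_zero Subgroup.FiniteIndex.index_ne_zero
  exact Nat.eq_of_mul_eq_mul_right hpos htower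

/-! ### finite products -/

theorem s35nat_cusp_smul {G : HolRing} (hc : GkmCusp G) (g : SL(2, ℤ)) : GkmCusp (g • G) := by
  intro g'
  obtain ⟨h, hh, S, hS⟩ := hc (g' * g)
  refine ⟨h, hh, S, ?_⟩
  rwa [mul_smul] at hS

theorem s35nat_cusp_prod {ι : Type*} (s : Finset ι) (F : ι → HolRing)
    (hF : ∀ i ∈ s, GkmCusp (F i)) : GkmCusp (∏ i ∈ s, F i) := by
  classical
  induction s using Finset.induction_on with
  | empty =>
    rw [Finset.prod_empty]
    have := gkmm_cusp_C 1
    rwa [map_one] at this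
  | insert a s has ih =>
    rw [Finset.prod_insert has]
    exact gkmm_cusp_mul (hF a (Finset.mem_insert_self a s))
      (ih fun i hi => hF i (Finset.mem_insert_of_mem hi))

theorem s35nat_hasCuspExp_prod {h : ℕ} [NeZero h] {ι : Type*} (s : Finset ι) (F : ι → HolRing)
    (S : ι → LaurentSeries ℂ) (hF : ∀ i ∈ s, HasCuspExp h (F i : ℍ → ℂ) (S i)) :
    HasCuspExp h ((∏ i ∈ s, F i : HolRing) : ℍ → ℂ) (∏ i ∈ s, S i) := by
  classical
  induction s using Finset.induction_on with
  | empty =>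
    rw [Finset.prod_empty, Finset.prod_empty]
    have := HasCuspExp.const (h := h) (1 : ℂ)
    rw [map_one] at this
    exact this
  | insert a s has ih =>
    rw [Finset.prod_insert has, Finset.prod_insert has]
    exact (hF a (Finset.mem_insert_self a s)).mul
      (ih fun i hi => hF i (Finset.mem_insert_of_mem hi))

/-! ### the norm -/

/-- the product of the conjugates of `G`. -/
def s35natProd (G : HolRing) : HolRing :=
  ∏ ξ : S35natQ (Gamma0 (M * q)) (Gamma0 M), ((ξ.out : Gamma0 M) : SL(2, ℤ)) • G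

theorem s35natProd_pow (G : HolRing) (n : ℕ) :
    s35natProd M q (G ^ n) = (s35natProd M q G) ^ n := by
  simp only [s35natProd, smul_pow', Finset.prod_pow]

theorem s35natProd_inv {G : HolRing} (hG : GkmMult (M * q) 1 G) :
    GkmMult M 1 (s35natProd M q G) := by
  rw [gkmm_mult_one_iff] at hG ⊢
  intro γ hγ
  exact s35nat_smul_prod_inv (Γ' := Gamma0 (M * q)) (Γ := Gamma0 M) G (fun c => hG c c.2) ⟨γ, hγ⟩

theorem s35natProd_cusp {G : HolRing} (hG : GkmCusp G) : GkmCusp (s35natProd M q G) :=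
  s35nat_cusp_prod _ _ fun ξ _ => s35nat_cusp_smul hG _

theorem s35nat_finite_alpha :
    letI := algebraAlong (heckeAlphaBar ℂ M q)
    Module.Finite (gfcField M) (gfcField (M * q)) := by
  haveI := gfc_finiteDimensional_jBar (M * q)
  have hα : heckeAlphaBar ℂ M q (gfc_jBar M) = gfc_jBar (M * q) := Subtype.ext rfl
  exact gff_finite_along (heckeAlphaBar ℂ M q) (gfc_jBar M) (gfc_jBar (M * q)) hα

/-- the norm along `α` in terms of the embeddings `σ_ξ`. -/
theorem s35nat_norm_sigma (y : gfcField (M * q)) :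
    letI := algebraAlong (heckeAlphaBar ℂ M q)
    qExpand ℂ (M * q) ((Algebra.norm (gfcField M) y : gfcField M) : LaurentSeries ℂ) =
      ∏ ξ : S35natQ (Gamma0 (M * q)) (Gamma0 M), s35natSigma M q ξ y := by
  letI := algebraAlong (heckeAlphaBar ℂ M q)
  haveI : Module.Finite (gfcField M) (gfcField (M * q)) := s35nat_finite_alpha M q
  exact s35nat_norm_eq_prod
    ((qExpand ℂ (M * q)).comp (gfcField M).val.toRingHom) (s35natSigma M q)
    (fun ξ k => s35nat_cuspEmb_alpha M q _ (ξ.out : Gamma0 M).2 k)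
    (s35natSigma_injective M q) (le_of_eq (s35nat_finrank_alpha M q)) y

/-- **(ANORM-α)** the norm of `y` along `α` is the holomorphic function `∏ ξ, ξ.out • G`. -/
theorem s35nat_norm_hol {y : gfcField (M * q)} {G : HolRing}
    (hG : HasCuspExp 1 (G : ℍ → ℂ) ((y : gfcField (M * q)) : LaurentSeries ℂ)) :
    letI := algebraAlong (heckeAlphaBar ℂ M q)
    HasCuspExp 1 ((s35natProd M q G : HolRing) : ℍ → ℂ)
      (((Algebra.norm (gfcField M) y : gfcField M)) : LaurentSeries ℂ) := by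
  letI := algebraAlong (heckeAlphaBar ℂ M q)
  haveI : Module.Finite (gfcField M) (gfcField (M * q)) := s35nat_finite_alpha M q
  obtain ⟨u, hu⟩ := gkm_mem_of_cusp (s35natProd M q G)
    (s35natProd_inv M q (gkm_hol_invariant hG)) (s35natProd_cusp M q (gkm_hol_cusp hG))
  have hP1 : HasCuspExp (M * q) ((s35natProd M q G : HolRing) : ℍ → ℂ)
      (∏ ξ : S35natQ (Gamma0 (M * q)) (Gamma0 M), s35natSigma M q ξ y) :=
    s35nat_hasCuspExp_prod _ _ _ fun ξ _ => s35nat_hasCuspExp_cuspEmb hG _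
  have hP2 := hu.qExpand (M * q)
  rw [one_mul] at hP2
  have h3 := hP2.unique hP1
  have h4 := s35nat_norm_eq_prod
    ((qExpand ℂ (M * q)).comp (gfcField M).val.toRingHom) (s35natSigma M q)
    (fun ξ k => s35nat_cuspEmb_alpha M q _ (ξ.out : Gamma0 M).2 k)
    (s35natSigma_injective M q) (le_of_eq (s35nat_finrank_alpha M q)) y
  have h5 : qExpand ℂ (M * q) ((Algebra.norm (gfcField M) y : gfcField M) : LaurentSeries ℂ) =
      qExpand ℂ (M * q) ((u : gfcField M) : LaurentSeries ℂ) := by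
    rw [h3, ← h4]
    rfl
  rw [(qExpand ℂ (M * q)).injective h5]
  exact hu

/-! ### the multiplier -/

/-- **(MULT-α)** the multiplier of `∏ ξ, ξ.out • H` is the transfer of the multiplier of `H`. -/
theorem s35nat_prod_mult {χ : Gamma0 (M * q) →* ℂˣ} {H : HolRing} (hH : GkmMult (M * q) χ H) :
    GkmMult M (s35natTransfer χ) (s35natProd M q H) := by
  intro γ
  have h := s35nat_smul_prod (Γ' := Gamma0 (M * q)) (Γ := Gamma0 M)
    ((Units.map (HolRing.C : ℂ →+* HolRing).toMonoidHom).comp χ)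
    (fun g c => rfl) H (fun c => hH c) γ
  rw [show (∏ ξ : S35natQ (Gamma0 (M * q)) (Gamma0 M), ((ξ.out : Gamma0 M) : SL(2, ℤ)) • H) =
    s35natProd M q H from rfl] at h
  rw [h]
  congr 1
  rw [s35natTransfer_apply, s35natTransfer_apply, Units.coe_prod, Units.coe_prod, map_prod]
  rfl

end Setting

end Fermat.Agent.S35
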