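/-
S35 / Program T, leaf NAT (helper22), file 5: THE ATKIN-LEHNER OPERATOR `W_q` ON HOLOMORPHIC FUNCTIONS.

`q` prime, `q ∤ M`, `N = M q`.  Bezout: `a q - b M = 1`, `γ₀ = [[a, b], [M, q]] ∈ Γ₀(M)`,
`W = γ₀ · diag(q, 1)` (determinant `q`, normalises `Γ₀(N)`).

* `s35natW : HolRing →+* HolRing`, `(W F)(τ) = F (γ₀ (q τ))`;
* `s35natW_of_inv`   : `W F = F(q τ)` for `Γ₀(M)`-invariant `F`;
* `s35natW_delta`    : `W (F(q τ)) = F` for `Γ₀(M)`-invariant `F`;
* `s35natConjW : Γ₀(N) →* Γ₀(N)`, `c ↦ W c W⁻¹`, and `s35natW_mult` : if `H` has multiplier `χ` then `W H`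
  has multiplier `χ ∘ conj_W`;
* `s35natW_cusp`     : `W` preserves meromorphy at the cusps.
-/
import Fermat.Agent.S35.Nat.Emb
import Fermat.Agent.G.Kum.HeckeMult
import Fermat.Agent.G.Kum.HeckeCusp
import Fermat.Agent.S23.UNStab

set_option autoImplicit false
set_option linter.unusedSectionVars false
set_option linter.unusedVariables false
set_option linter.style.haveILetI false

noncomputable section

namespace Fermat.Agent.S35

open UpperHalfPlane ModularCurve AlgebraicCurve CongruenceSubgroup Fermat.Agent.S24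
  Fermat.Agent.G Fermat.Agent.S23 IntermediateField
open scoped MatrixGroups Manifold ModularForm Real

/-! ### generalities on `compGL` -/

theorem s35nat_compGL_injective (g : GL (Fin 2) ℝ) (hg : 0 < g.det.val) :
    Function.Injective (HolRing.compGL g hg) := by
  intro F F' h
  ext τ
  have h1 := congrArg (fun X : HolRing => (X : ℍ → ℂ) (g⁻¹ • τ)) h
  simpa [HolRing.compGL_apply, smul_inv_smul] using h1

/-- `F(q τ)`. -/
def s35natDelta (q : ℕ) [NeZero q] : HolRing →+* HolRing :=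
  HolRing.compGL (utGL q 0 1) (det_utGL_pos (NeZero.ne q) one_ne_zero 0)

theorem s35natDelta_apply (q : ℕ) [NeZero q] (F : HolRing) (τ : ℍ) :
    (s35natDelta q F : ℍ → ℂ) τ = (F : ℍ → ℂ) (utGL q 0 1 • τ) := rfl

theorem s35natDelta_injective (q : ℕ) [NeZero q] : Function.Injective (s35natDelta q) :=
  s35nat_compGL_injective _ _

/-- the expansion of `F(q τ)`. -/
theorem s35natDelta_hasCuspExp (q : ℕ) [NeZero q] {F : HolRing} {S : LaurentSeries ℂ}
    (hS : HasCuspExp 1 (F : ℍ → ℂ) S) :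
    HasCuspExp 1 (s35natDelta q F : ℍ → ℂ) (qExpand ℂ q S) := by
  have h := HasCuspExp.comp_affine (NeZero.ne q) one_ne_zero 0 (utGL q 0 1)
    (fun τ => by
      rw [coe_utGL_smul (NeZero.ne q) one_ne_zero 0 τ]) hS 1 (by simp)
  have e : rotLaurent 1 S = S := gfc_bridge_rotLaurent_one S
  rw [e] at h
  exact h

/-- Hermite normal form of `diag(d, 1) γ`. -/
theorem s35nat_hermite (d : ℕ) (hd : d ≠ 0) (γ : SL(2, ℤ)) :
    ∃ (a d' : ℕ) (b : ℤ) (β : SL(2, ℤ)), a ≠ 0 ∧ d' ≠ 0 ∧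
      utGL d 0 1 * Matrix.SpecialLinearGroup.mapGL ℝ γ =
        Matrix.SpecialLinearGroup.mapGL ℝ β * utGL a b d' := by
  by_cases hdiv : (d : ℤ) ∣ γ 1 0
  · obtain ⟨c', hc'⟩ := hdiv
    exact ⟨d, 1, 0, _, hd, one_ne_zero, utGL_mul_mapGL d hd γ c' hc'⟩
  · obtain ⟨a, d', b', β, ha, hd', -, -, hdecomp⟩ := unstab_exists_hermite_decomp d hd γ hdiv
    exact ⟨a, d', b', β, ha, hd', hdecomp⟩

/-- `F ↦ F(q τ)` preserves meromorphy at the cusps. -/
theorem s35natDelta_cusp (q : ℕ) [NeZero q] {F : HolRing} (hc : GkmCusp F) :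
    GkmCusp (s35natDelta q F) := by
  intro g
  obtain ⟨a, d', b, β, ha, hd', hdec⟩ := s35nat_hermite q (NeZero.ne q) g⁻¹
  obtain ⟨h, hne, S, hS⟩ := hc β⁻¹
  have hfun : ((g • s35natDelta q F : HolRing) : ℍ → ℂ) =
      fun τ : ℍ => ((β⁻¹ • F : HolRing) : ℍ → ℂ) (utGL a b d' • τ) := by
    funext τ
    rw [HolRing.smul_apply, s35natDelta_apply, HolRing.inv_smul_apply]
    have e1 : (utGL q 0 1 • (g⁻¹ • τ) : ℍ) =
        (utGL q 0 1 * Matrix.SpecialLinearGroup.mapGL ℝ g⁻¹) • τ := by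
      rw [mul_smul]
      rfl
    rw [e1, hdec, mul_smul]
    rfl
  rw [hfun]
  have h1 := gkmc_comp_affine hne.ne ha hd' b (utGL a b d')
    (fun τ => coe_utGL_smul ha hd' b τ) hS
    (Units.mk0 _ (Complex.exp_ne_zero _)) (Units.val_mk0 _)
  exact ⟨_, ⟨mul_ne_zero hd' hne.ne⟩, _, h1⟩

/-! ### the matrices -/

section Setting

variable (M q : ℕ) [NeZero M] [NeZero q] (hq : q.Prime) (hqM : ¬ q ∣ M)

include hq hqM

theorem s35nat_exists_bezout : ∃ a b : ℤ, a * q - b * M = 1 := by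
  have hcop : Nat.Coprime q M := (Nat.Prime.coprime_iff_not_dvd hq).mpr hqM
  have h := Int.gcd_eq_gcd_ab (q : ℤ) (M : ℤ)
  rw [Int.gcd_natCast_natCast, hcop] at h
  refine ⟨Int.gcdA q M, -Int.gcdB q M, ?_⟩
  push_cast at h
  linarith

/-- Bezout coefficient `a`. -/
def s35natA : ℤ := (s35nat_exists_bezout M q hq hqM).choose

/-- Bezout coefficient `b`. -/
def s35natB : ℤ := (s35nat_exists_bezout M q hq hqM).choose_spec.choose

theorem s35nat_bezout : s35natA M q hq hqM * q - s35natB M q hq hqM * M = 1 :=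
  (s35nat_exists_bezout M q hq hqM).choose_spec.choose_spec

/-- `γ₀ = [[a, b], [M, q]]`. -/
def s35natG0 : SL(2, ℤ) :=
  ⟨!![s35natA M q hq hqM, s35natB M q hq hqM; (M : ℤ), (q : ℤ)], by
    rw [Matrix.det_fin_two_of]
    have := s35nat_bezout M q hq hqM
    linarith⟩

theorem s35natG0_mem : s35natG0 M q hq hqM ∈ Gamma0 M := by
  rw [Gamma0_mem]
  show (((M : ℤ) : ℤ) : ZMod M) = 0
  simp

/-- `γ₁ = [[q a, b], [M, 1]]`. -/
def s35natG1 : SL(2, ℤ) :=
  ⟨!![(q : ℤ) * s35natA M q hq hqM, s35natB M q hq hqM; (M : ℤ), 1], by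
    rw [Matrix.det_fin_two_of]
    have := s35nat_bezout M q hq hqM
    linarith⟩

theorem s35natG1_mem : s35natG1 M q hq hqM ∈ Gamma0 M := by
  rw [Gamma0_mem]
  show (((M : ℤ) : ℤ) : ZMod M) = 0
  simp

/-- `diag(q, 1) γ₀ = γ₁ diag(1, q)`. -/
theorem s35nat_delta_mul_G0 :
    utGL q 0 1 * Matrix.SpecialLinearGroup.mapGL ℝ (s35natG0 M q hq hqM) =
      Matrix.SpecialLinearGroup.mapGL ℝ (s35natG1 M q hq hqM) * utGL 1 0 q := by
  apply Matrix.GeneralLinearGroup.ext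
  intro i j
  simp only [Matrix.GeneralLinearGroup.coe_mul, val_utGL (NeZero.ne q) one_ne_zero,
    val_utGL one_ne_zero (NeZero.ne q), Matrix.mul_apply, Fin.sum_univ_two, unstab_mapGL_apply]
  fin_cases i <;> fin_cases j <;> simp [s35natG0, s35natG1] <;> ring

theorem s35nat_utGL_inv_smul (τ : ℍ) : utGL 1 0 q • (utGL q 0 1 • τ) = τ := by
  apply UpperHalfPlane.ext
  rw [coe_utGL_smul one_ne_zero (NeZero.ne q), coe_utGL_smul (NeZero.ne q) one_ne_zero]
  have hq0 : (q : ℂ) ≠ 0 := Nat.cast_ne_zero.mpr (NeZero.ne q)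
  push_cast
  field_simp
  ring

/-! ### the operator `W` -/

/-- the Atkin-Lehner operator `(W F)(τ) = F(γ₀ (q τ))`. -/
def s35natW : HolRing →+* HolRing :=
  (s35natDelta q).comp (MulSemiringAction.toRingHom SL(2, ℤ) HolRing (s35natG0 M q hq hqM)⁻¹)

theorem s35natW_eq (F : HolRing) :
    s35natW M q hq hqM F = s35natDelta q ((s35natG0 M q hq hqM)⁻¹ • F) := rfl

theorem s35natW_apply (F : HolRing) (τ : ℍ) :
    (s35natW M q hq hqM F : ℍ → ℂ) τ =
      (F : ℍ → ℂ) ((Matrix.SpecialLinearGroup.mapGL ℝ (s35natG0 M q hq hqM) : GL (Fin 2) ℝ) •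
        (utGL q 0 1 • τ)) := by
  rw [s35natW_eq, s35natDelta_apply, HolRing.inv_smul_apply]
  rfl

theorem s35natW_injective : Function.Injective (s35natW M q hq hqM) := by
  intro F F' h
  have h1 := s35natDelta_injective q h
  have h2 := congrArg (fun X : HolRing => (s35natG0 M q hq hqM) • X) h1
  simpa using h2

/-- `W F = F(q τ)` for `Γ₀(M)`-invariant `F`. -/
theorem s35natW_of_inv {F : HolRing} (hF : ∀ γ : SL(2, ℤ), γ ∈ Gamma0 M → γ • F = F) :
    s35natW M q hq hqM F = s35natDelta q F := by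
  rw [s35natW_eq, hF _ (inv_mem (s35natG0_mem M q hq hqM))]

/-- `W (F(q τ)) = F` for `Γ₀(M)`-invariant `F`. -/
theorem s35natW_delta {F : HolRing} (hF : ∀ γ : SL(2, ℤ), γ ∈ Gamma0 M → γ • F = F) :
    s35natW M q hq hqM (s35natDelta q F) = F := by
  ext τ
  rw [s35natW_apply, s35natDelta_apply, ← mul_smul, s35nat_delta_mul_G0 M q hq hqM, mul_smul,
    s35nat_utGL_inv_smul M q hq hqM]
  have h := hF _ (inv_mem (s35natG1_mem M q hq hqM))
  have h2 := HolRing.inv_smul_apply (s35natG1 M q hq hqM) F τ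
  rw [h] at h2
  exact h2.symm

theorem s35natW_cusp {F : HolRing} (hc : GkmCusp F) : GkmCusp (s35natW M q hq hqM F) :=
  s35natDelta_cusp q (s35nat_cusp_smul hc _)

/-! ### conjugation by `W` on `Γ₀(M q)` -/

omit hq hqM in
theorem s35nat_exists_t (c : Gamma0 (M * q)) :
    ∃ t : ℤ, (c : SL(2, ℤ)) 1 0 = (q : ℤ) * ((M : ℤ) * t) := by
  have h := c.2
  rw [Gamma0_mem, ZMod.intCast_zmod_eq_zero_iff_dvd] at h
  obtain ⟨t, ht⟩ := h
  refine ⟨t, ?_⟩
  rw [ht]
  push_cast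
  ring

omit hq hqM in
/-- `t` with `c₁₀ = q M t`. -/
def s35natT (c : Gamma0 (M * q)) : ℤ := (s35nat_exists_t M q c).choose

omit hq hqM in
theorem s35natT_spec (c : Gamma0 (M * q)) :
    (c : SL(2, ℤ)) 1 0 = (q : ℤ) * ((M : ℤ) * s35natT M q c) :=
  (s35nat_exists_t M q c).choose_spec

/-- `W c W⁻¹ = γ₀ (δ c δ⁻¹) γ₀⁻¹`. -/
def s35natConjRaw (c : Gamma0 (M * q)) : SL(2, ℤ) :=
  s35natG0 M q hq hqM *
    unstab_conjSL q (c : SL(2, ℤ)) ((M : ℤ) * s35natT M q c) (s35natT_spec M q c) *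
    (s35natG0 M q hq hqM)⁻¹

/-- the matrix `W = γ₀ diag(q, 1)`. -/
def s35natWmat : GL (Fin 2) ℝ :=
  Matrix.SpecialLinearGroup.mapGL ℝ (s35natG0 M q hq hqM) * utGL q 0 1

theorem s35natConjRaw_spec (c : Gamma0 (M * q)) :
    s35natWmat M q hq hqM * Matrix.SpecialLinearGroup.mapGL ℝ (c : SL(2, ℤ)) =
      Matrix.SpecialLinearGroup.mapGL ℝ (s35natConjRaw M q hq hqM c) * s35natWmat M q hq hqM := by
  unfold s35natWmat s35natConjRaw
  rw [mul_assoc, utGL_mul_mapGL q (NeZero.ne q) (c : SL(2, ℤ)) _ (s35natT_spec M q c), map_mul,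
    map_mul, map_inv]
  group

theorem s35natConjRaw_mem (c : Gamma0 (M * q)) : s35natConjRaw M q hq hqM c ∈ Gamma0 (M * q) := by
  rw [Gamma0_mem, ZMod.intCast_zmod_eq_zero_iff_dvd]
  refine ⟨(c : SL(2, ℤ)) 0 0 + q * s35natT M q c - M * (c : SL(2, ℤ)) 0 1 - (c : SL(2, ℤ)) 1 1, ?_⟩
  unfold s35natConjRaw
  rw [Matrix.SpecialLinearGroup.coe_mul, Matrix.SpecialLinearGroup.coe_mul,
    Matrix.SpecialLinearGroup.coe_inv, Matrix.adjugate_fin_two]
  simp only [Matrix.mul_apply, Fin.sum_univ_two, s35natG0, unstab_conjSL]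
  simp
  ring

theorem s35natConjRaw_mul (c d : Gamma0 (M * q)) :
    s35natConjRaw M q hq hqM (c * d) = s35natConjRaw M q hq hqM c * s35natConjRaw M q hq hqM d := by
  apply Matrix.SpecialLinearGroup.mapGL_injective (S := ℝ)
  have h1 := s35natConjRaw_spec M q hq hqM c
  have h2 := s35natConjRaw_spec M q hq hqM d
  have h3 := s35natConjRaw_spec M q hq hqM (c * d)
  rw [Subgroup.coe_mul, map_mul, ← mul_assoc, h1, mul_assoc, h2, ← mul_assoc] at h3
  rw [map_mul]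
  exact (mul_right_cancel h3).symm

/-- conjugation by `W` on `Γ₀(M q)`. -/
def s35natConjW : Gamma0 (M * q) →* Gamma0 (M * q) :=
  MonoidHom.mk' (fun c => ⟨s35natConjRaw M q hq hqM c, s35natConjRaw_mem M q hq hqM c⟩)
    (fun c d => Subtype.ext (s35natConjRaw_mul M q hq hqM c d))

theorem s35natConjW_coe (c : Gamma0 (M * q)) :
    ((s35natConjW M q hq hqM c : Gamma0 (M * q)) : SL(2, ℤ)) = s35natConjRaw M q hq hqM c := rfl

/-- `W H` has multiplier `χ ∘ conj_W`. -/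
theorem s35natW_mult {χ : Gamma0 (M * q) →* ℂˣ} {H : HolRing} (hH : GkmMult (M * q) χ H) :
    GkmMult (M * q) (χ.comp (s35natConjW M q hq hqM)) (s35natW M q hq hqM H) := by
  refine gkmh_mult_of_apply fun c τ => ?_
  rw [s35natW_apply, s35natW_apply, ← mul_smul, ← mul_smul]
  have h1 := s35natConjRaw_spec M q hq hqM c
  unfold s35natWmat at h1
  rw [h1, mul_smul, mul_smul]
  exact gkmh_mult_apply hH (s35natConjW M q hq hqM c) _

theorem s35natW_inv {G : HolRing} (hG : GkmMult (M * q) 1 G) :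
    GkmMult (M * q) 1 (s35natW M q hq hqM G) := by
  have h := s35natW_mult M q hq hqM hG
  have e : (1 : Gamma0 (M * q) →* ℂˣ).comp (s35natConjW M q hq hqM) = 1 := by
    ext c
    simp
  rwa [e] at h

end Setting

end Fermat.Agent.S35
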