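/-
S35 / S36, leaf NAT (helper22), file 9: CONJUGATION BY THE FRICKE MATRIX `w_N = [0, -1; N, 0]` ON `Γ₀(N)`
(any level `N ≠ 0`), through main's `s41hkConjHom` (`S41/HK/Defs.lean`).

* `s35nfMat N = [0, -1; N, 0]`, `s35nf_conjugates`, `s35nfConj N : Γ₀(N) →* Γ₀(N)`,
  `s35nfConj_spec : w_N γ = (s35nfConj N γ) w_N` (integer matrices), `s35nfConj_specGL` (in `GL₂(ℝ)`),
  `s35nfConj_coe` : `[a, b; N t, d] ↦ [d, -t; -N b, a]`.

The degeneracy map `β : f(τ) ↦ f(q τ)`, `F(M) → F(M q)`, is `Fr_{M q} ∘ α ∘ Fr_M` for EVERY `M, q`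
(`w_M w_{M q} = -M diag(q, 1)`), where `(Fr_N f)(τ) = f(-1/(N τ))`.
-/
import Fermat.Agent.S41.HK.Defs

set_option autoImplicit false

noncomputable section

namespace Fermat.Agent.S35

open Fermat.Agent.S16LB Fermat.Agent.S41
open CongruenceSubgroup
open scoped MatrixGroups

variable (N : ℕ)

/-- the Fricke matrix `w_N = [0, -1; N, 0]`. -/
def s35nfMat : Matrix (Fin 2) (Fin 2) ℤ := !![0, -1; (N : ℤ), 0]

theorem s35nfMat_det : (s35nfMat N).det = N := by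
  rw [s35nfMat, Matrix.det_fin_two_of]
  ring

theorem s35nfMat_det_ne_zero [NeZero N] : (s35nfMat N).det ≠ 0 := by
  rw [s35nfMat_det]
  exact_mod_cast NeZero.ne N

/-- `w_N [a, b; N t, d] = [d, -t; -N b, a] w_N`. -/
theorem s35nf_conjugates : s41hkConjugates (s35nfMat N) N N := by
  intro γ
  obtain ⟨t, ht⟩ := s16lb_dvd_of_mem_Gamma0 γ.2
  have hdet := (γ : SL(2, ℤ)).det_coe
  rw [Matrix.det_fin_two] at hdet
  have ht' : ((γ : SL(2, ℤ)) : Matrix (Fin 2) (Fin 2) ℤ) 1 0 = (N : ℤ) * t := ht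
  refine ⟨⟨⟨!![(γ : SL(2, ℤ)) 1 1, -t; -((N : ℤ) * (γ : SL(2, ℤ)) 0 1), (γ : SL(2, ℤ)) 0 0], ?_⟩,
    ?_⟩, ?_⟩
  · rw [Matrix.det_fin_two_of]
    rw [ht'] at hdet
    linear_combination hdet
  · refine s16lb_mem_Gamma0_of_dvd ?_
    show (N : ℤ) ∣ (!![(γ : SL(2, ℤ)) 1 1, -t; -((N : ℤ) * (γ : SL(2, ℤ)) 0 1),
      (γ : SL(2, ℤ)) 0 0] : Matrix (Fin 2) (Fin 2) ℤ) 1 0
    simp
  · ext i j
    fin_cases i <;> fin_cases j <;>
      simp [s35nfMat, Matrix.mul_apply, Fin.sum_univ_two, ht'] <;> ring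

variable [NeZero N]

/-- conjugation by the Fricke matrix on `Γ₀(N)`. -/
def s35nfConj : Gamma0 N →* Gamma0 N :=
  s41hkConjHom (s35nfMat_det_ne_zero N) (s35nf_conjugates N)

theorem s35nfConj_spec (γ : Gamma0 N) :
    s35nfMat N * ((γ : SL(2, ℤ)) : Matrix (Fin 2) (Fin 2) ℤ)
      = ((s35nfConj N γ : SL(2, ℤ)) : Matrix (Fin 2) (Fin 2) ℤ) * s35nfMat N :=
  s41hkConjFun_spec (s35nf_conjugates N) γ

theorem s35nfConj_specGL (γ : Gamma0 N) :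
    s41hkGL (s35nfMat N) (s35nfMat_det_ne_zero N) * s16lbIota N γ
      = s16lbIota N (s35nfConj N γ) * s41hkGL (s35nfMat N) (s35nfMat_det_ne_zero N) :=
  s41hkConjFun_specGL (s35nfMat_det_ne_zero N) (s35nf_conjugates N) γ

/-- the entries of the conjugate: `[a, b; c, d] ↦ [d, -c/N; -N b, a]`. -/
theorem s35nfConj_entries (γ : Gamma0 N) :
    (s35nfConj N γ : SL(2, ℤ)) 0 0 = (γ : SL(2, ℤ)) 1 1 ∧
    (N : ℤ) * (s35nfConj N γ : SL(2, ℤ)) 0 1 = -(γ : SL(2, ℤ)) 1 0 ∧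
    (s35nfConj N γ : SL(2, ℤ)) 1 0 = -((N : ℤ) * (γ : SL(2, ℤ)) 0 1) ∧
    (s35nfConj N γ : SL(2, ℤ)) 1 1 = (γ : SL(2, ℤ)) 0 0 := by
  have h := s35nfConj_spec N γ
  have hN : (N : ℤ) ≠ 0 := by exact_mod_cast NeZero.ne N
  have h00 := congrFun (congrFun h 0) 0
  have h01 := congrFun (congrFun h 0) 1
  have h10 := congrFun (congrFun h 1) 0
  have h11 := congrFun (congrFun h 1) 1
  simp [s35nfMat, Matrix.mul_apply, Fin.sum_univ_two] at h00 h01 h10 h11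
  refine ⟨?_, ?_, ?_, ?_⟩
  · linarith
  · linarith
  · linarith
  · exact (mul_left_cancel₀ hN (by linarith)).symm

/-- the Fricke conjugation is an involution. -/
theorem s35nfConj_conj (γ : Gamma0 N) : s35nfConj N (s35nfConj N γ) = γ := by
  obtain ⟨a1, a2, a3, a4⟩ := s35nfConj_entries N γ
  obtain ⟨b1, b2, b3, b4⟩ := s35nfConj_entries N (s35nfConj N γ)
  have hN : (N : ℤ) ≠ 0 := by exact_mod_cast NeZero.ne N
  apply Subtype.ext
  apply Subtype.ext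
  ext i j
  fin_cases i <;> fin_cases j
  · exact b1.trans a4
  · show (s35nfConj N (s35nfConj N γ) : SL(2, ℤ)) 0 1 = (γ : SL(2, ℤ)) 0 1
    apply mul_left_cancel₀ hN
    rw [b2, a3]
    ring
  · show (s35nfConj N (s35nfConj N γ) : SL(2, ℤ)) 1 0 = (γ : SL(2, ℤ)) 1 0
    rw [b3, a2]
    ring
  · exact b4.trans a1

end Fermat.Agent.S35
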