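/-
S35 / S36, leaf NAT (helper22), file 10: THE FRICKE OPERATOR `Fr_N` ON HOLOMORPHIC FUNCTIONS,
`(Fr_N F)(τ) = F(-1/(N τ))`, any level `N ≠ 0` (matrix `w_N = S · diag(N, 1) = [0, -1; N, 0]`).

* `s35nfW N : HolRing →+* HolRing`, `s35nfW_apply`, `s35nfW_coe_smul`;
* `s35nfW_W`      : `Fr_N ∘ Fr_N = id`;
* `s35nfW_mult`   : if `H` has multiplier `χ` on `Γ₀(N)` then `Fr_N H` has multiplier `χ ∘ conj_{w_N}`;
* `s35nfW_cusp`   : `Fr_N` preserves meromorphy at the cusps;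
* `s35nfW_alpha`  : `Fr_{M q} F = (Fr_M F)(q τ)`;   `s35nfW_beta` : `Fr_{M q} (F(q τ)) = Fr_M F`
  (i.e. `Fr_{M q} ∘ α = β ∘ Fr_M` and `Fr_{M q} ∘ β = α ∘ Fr_M`, for ALL `M, q`);
* `s35nfW_jdHol`  : `Fr_N (j(d τ)) = j((N/d) τ)`.
-/
import Fermat.Agent.S35.Nat.AL
import Fermat.Agent.S35.Nat.FrConj

set_option autoImplicit false
set_option linter.unusedSectionVars false
set_option linter.unusedVariables false
set_option linter.style.haveILetI false

noncomputable section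

namespace Fermat.Agent.S35

open UpperHalfPlane ModularCurve AlgebraicCurve CongruenceSubgroup Fermat.Agent.S24
  Fermat.Agent.G Fermat.Agent.S23 Fermat.Agent.S16LB Fermat.Agent.S41
open scoped MatrixGroups Manifold ModularForm Real

section Setting

variable (N : ℕ) [NeZero N]

/-- the Fricke operator `(Fr_N F)(τ) = F(S (N τ)) = F(-1/(N τ))`. -/
def s35nfW : HolRing →+* HolRing :=
  (s35natDelta N).comp (MulSemiringAction.toRingHom SL(2, ℤ) HolRing ModularGroup.S⁻¹)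

theorem s35nfW_eq (F : HolRing) : s35nfW N F = s35natDelta N (ModularGroup.S⁻¹ • F) := rfl

/-- the Fricke matrix in `GL₂(ℝ)`. -/
def s35nfWmat : GL (Fin 2) ℝ :=
  Matrix.SpecialLinearGroup.mapGL ℝ ModularGroup.S * utGL N 0 1

theorem s35nfW_apply (F : HolRing) (τ : ℍ) :
    (s35nfW N F : ℍ → ℂ) τ = (F : ℍ → ℂ) (s35nfWmat N • τ) := by
  rw [s35nfW_eq, s35natDelta_apply, HolRing.inv_smul_apply, s35nfWmat, mul_smul]
  rfl

theorem s35nfWmat_eq : s35nfWmat N = s41hkGL (s35nfMat N) (s35nfMat_det_ne_zero N) := by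
  apply Matrix.GeneralLinearGroup.ext
  intro i j
  simp only [s35nfWmat, Matrix.GeneralLinearGroup.coe_mul, val_utGL (NeZero.ne N) one_ne_zero,
    Matrix.mul_apply, Fin.sum_univ_two, unstab_mapGL_apply, s41hkGL_val, Matrix.map_apply]
  fin_cases i <;> fin_cases j <;> simp [s35nfMat, ModularGroup.S]

omit [NeZero N] in
theorem s35nf_coe_S_smul (τ : ℍ) : ((ModularGroup.S • τ : ℍ) : ℂ) = -1 / (τ : ℂ) := by
  rw [UpperHalfPlane.modular_S_smul]
  show (-(τ : ℂ))⁻¹ = -1 / (τ : ℂ)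
  rw [inv_neg, neg_div, one_div]

/-- `w_N τ = -1/(N τ)`. -/
theorem s35nfW_coe_smul (τ : ℍ) : ((s35nfWmat N • τ : ℍ) : ℂ) = -1 / ((N : ℂ) * (τ : ℂ)) := by
  have h1 : (s35nfWmat N • τ : ℍ) = ModularGroup.S • (utGL N 0 1 • τ) := by
    rw [s35nfWmat, mul_smul]
    rfl
  rw [h1, s35nf_coe_S_smul, coe_utGL_smul (NeZero.ne N) one_ne_zero]
  push_cast
  rw [add_zero, div_one]

/-- `Fr_N ∘ Fr_N = id`. -/
theorem s35nfW_W (F : HolRing) : s35nfW N (s35nfW N F) = F := by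
  ext τ
  rw [s35nfW_apply, s35nfW_apply]
  refine congrArg _ ?_
  apply UpperHalfPlane.ext
  rw [s35nfW_coe_smul, s35nfW_coe_smul]
  have hN : (N : ℂ) ≠ 0 := Nat.cast_ne_zero.mpr (NeZero.ne N)
  have hτ : (τ : ℂ) ≠ 0 := UpperHalfPlane.ne_zero τ
  field_simp

theorem s35nfW_injective : Function.Injective (s35nfW N) := fun F F' h => by
  rw [← s35nfW_W N F, h, s35nfW_W]

theorem s35nfW_cusp {F : HolRing} (hc : GkmCusp F) : GkmCusp (s35nfW N F) :=
  s35natDelta_cusp N (s35nat_cusp_smul hc _)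

/-- `Fr_N H` has multiplier `χ ∘ conj_{w_N}`. -/
theorem s35nfW_mult {χ : Gamma0 N →* ℂˣ} {H : HolRing} (hH : GkmMult N χ H) :
    GkmMult N (χ.comp (s35nfConj N)) (s35nfW N H) := by
  refine gkmh_mult_of_apply fun c τ => ?_
  rw [s35nfW_apply, s35nfW_apply, ← mul_smul]
  have h1 := s35nfConj_specGL N c
  rw [← s35nfWmat_eq, s16lbIota_apply, s16lbIota_apply] at h1
  rw [h1, mul_smul]
  exact gkmh_mult_apply hH (s35nfConj N c) _

theorem s35nfW_inv {G : HolRing} (hG : GkmMult N 1 G) : GkmMult N 1 (s35nfW N G) := by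
  have h := s35nfW_mult N hG
  have e : (1 : Gamma0 N →* ℂˣ).comp (s35nfConj N) = 1 := by
    ext c
    simp
  rwa [e] at h

end Setting

/-! ### two levels -/

section TwoLevels

variable (M q : ℕ) [NeZero M] [NeZero q]

/-- `Fr_{M q} F = (Fr_M F)(q τ)`. -/
theorem s35nfW_alpha (F : HolRing) : s35nfW (M * q) F = s35natDelta q (s35nfW M F) := by
  ext τ
  rw [s35nfW_apply, s35natDelta_apply, s35nfW_apply]
  refine congrArg _ ?_
  apply UpperHalfPlane.ext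
  rw [s35nfW_coe_smul, s35nfW_coe_smul, coe_utGL_smul (NeZero.ne q) one_ne_zero]
  push_cast
  rw [add_zero, div_one, mul_assoc]

/-- `Fr_{M q} (F(q τ)) = Fr_M F`. -/
theorem s35nfW_beta (F : HolRing) : s35nfW (M * q) (s35natDelta q F) = s35nfW M F := by
  ext τ
  rw [s35nfW_apply, s35natDelta_apply, s35nfW_apply]
  refine congrArg _ ?_
  apply UpperHalfPlane.ext
  rw [coe_utGL_smul (NeZero.ne q) one_ne_zero, s35nfW_coe_smul, s35nfW_coe_smul]
  have hM : (M : ℂ) ≠ 0 := Nat.cast_ne_zero.mpr (NeZero.ne M)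
  have hq : (q : ℂ) ≠ 0 := Nat.cast_ne_zero.mpr (NeZero.ne q)
  have hτ : (τ : ℂ) ≠ 0 := UpperHalfPlane.ne_zero τ
  push_cast
  field_simp
  ring

end TwoLevels

/-! ### the generators -/

/-- `Fr_N (j(d τ)) = j(e τ)` for `d e = N`. -/
theorem s35nfW_jdHol (d e : ℕ) [NeZero d] [NeZero e] :
    s35nfW (d * e) (gfc_jdHol d) = gfc_jdHol e := by
  ext τ
  rw [s35nfW_apply, gfc_jdHol_apply, gfc_jdHol_apply]
  have h1 : (utGL d 0 1 • (s35nfWmat (d * e) • τ) : ℍ) = ModularGroup.S • (utGL e 0 1 • τ) := by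
    apply UpperHalfPlane.ext
    rw [coe_utGL_smul (NeZero.ne d) one_ne_zero, s35nfW_coe_smul, s35nf_coe_S_smul,
      coe_utGL_smul (NeZero.ne e) one_ne_zero]
    have hd : (d : ℂ) ≠ 0 := Nat.cast_ne_zero.mpr (NeZero.ne d)
    have he : (e : ℂ) ≠ 0 := Nat.cast_ne_zero.mpr (NeZero.ne e)
    have hτ : (τ : ℂ) ≠ 0 := UpperHalfPlane.ne_zero τ
    push_cast
    field_simp
    ring
  rw [h1, jFun_smul]

end Fermat.Agent.S35
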