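/-
S35 / Program T, leaf NAT (helper22), file 4: **(NAT-α)** the push-forward `α_* : J₀(M q) → J₀(M)`
and the Kummer points.

* `s35nat_rel_alpha`  : over `ℂ`, `GkmRel (M q) n χ x → GkmRel M n (transfer χ) (N_α x)`;
* `s35nat_norm_iota`  : the norm along `α` commutes with the base change `ℚ̄ → ℂ`;
* `s35nat_rep_push`   : (generic) if `n D = div f` then `n (φ_* D) = div (N_φ f)` on classes;
* `s35natPushA M q`   : `α_* = g37pPush M q`;
* `s35nat_pt_pushA`   : **`GktfPt (M q) n ψ P → GktfPt M n (transfer ψ) (α_* P)`.**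
-/
import Fermat.Agent.S35.Nat.Emb
import Fermat.Agent.G.Kum.ThetaFamily
import Fermat.Agent.G.S37.Pull

set_option autoImplicit false
set_option linter.unusedSectionVars false
set_option linter.unusedVariables false
set_option linter.style.haveILetI false
set_option synthInstance.maxHeartbeats 400000

noncomputable section

namespace Fermat.Agent.S35

open UpperHalfPlane ModularCurve AlgebraicCurve CongruenceSubgroup Fermat.Agent.S24
  Fermat.Agent.G IntermediateField
open scoped MatrixGroups Manifold ModularForm Real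

/-! ### (NAT-α) over `ℂ` -/

section Complex

variable (M q : ℕ) [NeZero M] [NeZero q] {n : ℕ}

/-- **(NAT-α) over `ℂ`.** -/
theorem s35nat_rel_alpha {χ : Gamma0 (M * q) →* ℂˣ} {x : gfcField (M * q)}
    (h : GkmRel (M * q) n χ x) :
    GkmRel M n (s35natTransfer χ)
      ((letI := algebraAlong (heckeAlphaBar ℂ M q); Algebra.norm (gfcField M)) x) := by
  letI := algebraAlong (heckeAlphaBar ℂ M q)
  haveI : Module.Finite (gfcField M) (gfcField (M * q)) := s35nat_finite_alpha M q
  obtain ⟨b, hb, H, hH, hm⟩ := h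
  refine ⟨Algebra.norm (gfcField M) b, Algebra.norm_ne_zero_iff.mpr hb, s35natProd M q H, ?_,
    s35nat_prod_mult M q hm⟩
  have h1 := s35nat_norm_hol M q hH
  rw [s35natProd_pow, map_mul, map_pow] at h1
  exact h1

end Complex

/-! ### base change of the norm -/

section BaseChange

variable (M q : ℕ) [NeZero M] [NeZero q]

theorem s35nat_mem_Gamma0_of_cuspEmb_jd {N : ℕ} [NeZero N] (g g' : SL(2, ℤ))
    (h : gfc_cuspEmb N g (gfc_jdBar N N dvd_rfl) = gfc_cuspEmb N g' (gfc_jdBar N N dvd_rfl)) :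
    g⁻¹ * g' ∈ Gamma0 N := by
  apply gfc_mem_Gamma0_of_smul_jdHol
  have h1 := gfc_hasCuspExp_cuspHom N g ⟨gfc_jdBar N N dvd_rfl, gfc_jdBar_mem_RBar N N dvd_rfl⟩
  have h2 := gfc_hasCuspExp_cuspHom N g' ⟨gfc_jdBar N N dvd_rfl, gfc_jdBar_mem_RBar N N dvd_rfl⟩
  rw [← gfc_cuspEmb_coe] at h1 h2
  have h' : gfc_cuspEmb N g ((⟨gfc_jdBar N N dvd_rfl, gfc_jdBar_mem_RBar N N dvd_rfl⟩ :
      gfc_RBar N) : gfcField N) = gfc_cuspEmb N g' ((⟨gfc_jdBar N N dvd_rfl,
      gfc_jdBar_mem_RBar N N dvd_rfl⟩ : gfc_RBar N) : gfcField N) := h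
  rw [h', gfc_toHol_jdBar] at h1
  rw [gfc_toHol_jdBar] at h2
  have h3 : g • gfc_jdHol N = g' • gfc_jdHol N := Subtype.ext (h1.eq_of_eq h2)
  rw [mul_smul, ← h3, inv_smul_smul]

theorem s35nat_iota_jd (N : ℕ) [NeZero N] :
    gdqIota N (jdBar N N dvd_rfl) = gfc_jdBar N N dvd_rfl := by
  apply Subtype.ext
  rw [coe_gdqIota, coe_jdBar, gfc_coe_jdBar, bridge_coeffMap_iotaBar_coeffEmb_qExpand,
    ← gfc_bridge_coeffMap_iotaBar_coeffEmb_qExpand, s35nat_coeffMap_iota]

theorem s35nat_iota_alpha (k : modularFunctionFieldBar M) :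
    gdqIota (M * q) (heckeAlphaBar QBar M q k) = heckeAlphaBar ℂ M q (gdqIota M k) := by
  apply Subtype.ext
  rw [coe_gdqIota, coe_heckeAlphaBar, coe_heckeAlphaBar, coe_gdqIota]

theorem s35nat_finite_alphaBar :
    letI := algebraAlong (heckeAlphaBar QBar M q)
    Module.Finite (modularFunctionFieldBar M) (modularFunctionFieldBar (M * q)) :=
  gff_alpha_finite M q

/-- `[F_ℚ̄(M q) : F_ℚ̄(M)] = [Γ₀(M) : Γ₀(M q)]`. -/
theorem s35nat_finrank_alphaBar :
    letI := algebraAlong (heckeAlphaBar QBar M q)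
    Module.finrank (modularFunctionFieldBar M) (modularFunctionFieldBar (M * q)) =
      Fintype.card (S35natQ (Gamma0 (M * q)) (Gamma0 M)) := by
  letI := algebraAlong (heckeAlphaBar QBar M q)
  have htower := gcjd_finrank_tower (heckeAlphaBar QBar M q) (jBar M) (jBar (M * q))
    (gcjd_alpha_jBar M q)
  rw [finrank_jBar M, finrank_jBar (M * q)] at htower
  have hidx := Subgroup.relIndex_mul_index (s35nat_Gamma0_le M q)
  have e1 : Nat.card (SL(2, ℤ) ⧸ Gamma0 M) = (Gamma0 M).index := rfl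
  have e2 : Nat.card (SL(2, ℤ) ⧸ Gamma0 (M * q)) = (Gamma0 (M * q)).index := rfl
  have e3 : (Gamma0 (M * q)).relIndex (Gamma0 M) =
      Fintype.card (S35natQ (Gamma0 (M * q)) (Gamma0 M)) := by
    rw [← Nat.card_eq_fintype_card]
    rfl
  rw [e1, e2, ← hidx, e3, mul_comm] at htower
  have hpos : 0 < (Gamma0 M).index := Nat.pos_of_ne_zero Subgroup.FiniteIndex.index_ne_zero
  exact Nat.eq_of_mul_eq_mul_right hpos htower

/-- the embeddings of `F_ℚ̄(M q)`. -/
def s35natSigmaBar (ξ : S35natQ (Gamma0 (M * q)) (Gamma0 M)) :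
    modularFunctionFieldBar (M * q) →+* LaurentSeries ℂ :=
  (s35natSigma M q ξ).comp (gdqIota (M * q))

theorem s35natSigmaBar_injective : Function.Injective (s35natSigmaBar M q) := by
  intro ξ ξ' h
  have h0 := congrArg (fun φ : modularFunctionFieldBar (M * q) →+* LaurentSeries ℂ =>
    φ (jdBar (M * q) (M * q) dvd_rfl)) h
  simp only [s35natSigmaBar, RingHom.comp_apply, s35nat_iota_jd] at h0
  have h1 := s35nat_mem_Gamma0_of_cuspEmb_jd _ _ h0
  rw [← QuotientGroup.out_eq' ξ, ← QuotientGroup.out_eq' ξ', QuotientGroup.eq,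
    Subgroup.mem_subgroupOf]
  exact h1

/-- **the norm along `α` commutes with the base change `ℚ̄ → ℂ`.** -/
theorem s35nat_norm_iota (f : modularFunctionFieldBar (M * q)) :
    gdqIota M ((letI := algebraAlong (heckeAlphaBar QBar M q);
      Algebra.norm (modularFunctionFieldBar M)) f) =
    (letI := algebraAlong (heckeAlphaBar ℂ M q); Algebra.norm (gfcField M))
      (gdqIota (M * q) f) := by
  have h1 := s35nat_norm_sigma M q (gdqIota (M * q) f)
  letI := algebraAlong (heckeAlphaBar QBar M q)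
  haveI : Module.Finite (modularFunctionFieldBar M) (modularFunctionFieldBar (M * q)) :=
    s35nat_finite_alphaBar M q
  have h2 := s35nat_norm_eq_prod
    (((qExpand ℂ (M * q)).comp (gfcField M).val.toRingHom).comp (gdqIota M))
    (s35natSigmaBar M q)
    (fun ξ k => by
      show s35natSigma M q ξ (gdqIota (M * q) (heckeAlphaBar QBar M q k)) = _
      rw [s35nat_iota_alpha]
      exact s35nat_cuspEmb_alpha M q _ (ξ.out : Gamma0 M).2 (gdqIota M k))
    (s35natSigmaBar_injective M q) (le_of_eq (s35nat_finrank_alphaBar M q)) f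
  apply Subtype.ext
  apply (qExpand ℂ (M * q)).injective
  rw [h1]
  exact h2

end BaseChange

/-! ### push-forward of Kummer representatives -/

section Rep

variable {K F F' : Type*} [Field K] [Field F] [Field F'] [Algebra K F] [Algebra K F']

/-- if `n D = div f` then `n (φ_* D) = div (N_φ f)`, on classes. -/
theorem s35nat_rep_push (φ : F →ₐ[K] F') (hφ : φ.toRingHom.IsIntegral) (hfin : FiniteAlong K φ)
    (hN : NormFormulaAlong K φ hfin) {n : ℕ} {f : F'} (hf : f ≠ 0) {P : Pic0 K F'}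
    (h : GdkRep (K := K) n f P) :
    GdkRep (K := K) n ((letI := algebraAlong φ; Algebra.norm F) f)
      (g37pPushAlong φ hφ hfin hN P) := by
  obtain ⟨D, rfl, hD⟩ := h
  refine ⟨g37pDegZeroPush φ hφ D, g37pPushAlong_mk φ hφ hfin hN D, fun v => ?_⟩
  rw [coe_g37pDegZeroPush]
  have h1 : (n : ℤ) * Divisor.pushforwardAlong φ hφ (D : Divisor K F') v =
      Divisor.pushforwardAlong φ hφ ((n : ℤ) • (D : Divisor K F')) v := by
    rw [map_zsmul, Finsupp.smul_apply, smul_eq_mul]
  rw [h1]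
  exact gff_pushforwardAlong_ord φ hφ hfin hN _ f hf
    (fun w => by rw [Finsupp.smul_apply, smul_eq_mul, hD]) v

end Rep

/-! ### (NAT-α) -/

section Main

variable (M q : ℕ) [NeZero M] [NeZero q]

/-- the degeneracy push-forward `α_* : J₀(M q) → J₀(M)`. -/
def s35natPushA : JZero (M * q) →+ JZero M := g37pPush M q

/-- **(NAT-α)**: `α_*` of the point of `ψ` is the point of the transfer of `ψ`. -/
theorem s35nat_pt_pushA {n : ℕ} {ψ : Gamma0 (M * q) →* ℂˣ} {P : JZero (M * q)}
    (h : GktfPt (M * q) n ψ P) :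
    GktfPt M n (s35natTransfer ψ) (s35natPushA M q P) := by
  obtain ⟨f, hf, hrel, hrep⟩ := h
  refine ⟨(letI := algebraAlong (heckeAlphaBar QBar M q);
    Algebra.norm (modularFunctionFieldBar M)) f,
    gff_norm_ne_zero (heckeAlphaBar QBar M q) (gff_alpha_finite M q) f hf, ?_, ?_⟩
  · rw [s35nat_norm_iota]
    exact s35nat_rel_alpha M q hrel
  · exact s35nat_rep_push (heckeAlphaBar QBar M q) (gff_alpha_integral M q)
      (gff_alpha_finite M q) (g37p_alpha_normFormula M q) hf hrep

end Main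

end Fermat.Agent.S35
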