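/-
S35 / S36, leaf NAT (helper22), file 11: THE FRICKE INVOLUTION `Fr_N` OF `F_ℂ(N)` AND THE NORM ALONG `β`,
ALL LEVELS.

* `s35nfWF N : F_ℂ(N) →+* F_ℂ(N)` with `s35nfWF_hol` : if `y` is the holomorphic function `G` then
  `Fr y` is the holomorphic function `Fr_N G`; `s35nfWF_WF` (involution), `s35nfWEquiv`;
* `s35nfWF_alpha : Fr_{M q} ∘ α = β ∘ Fr_M`, `s35nfWF_beta : Fr_{M q} ∘ β = α ∘ Fr_M`;
* `s35nf_norm_beta` : `N_β y = Fr_M (N_α (Fr_{M q} y))`;
* `s35nfTransfer M q χ := (transfer (χ ∘ conj_{w_{M q}})) ∘ conj_{w_M}`;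
* `s35nf_rel_beta` : **(NAT-φ) over `ℂ`, all `M, q`**:
  `GkmRel (M q) n χ x → GkmRel M n (s35nfTransfer M q χ) (N_β x)`;
* `s35nfWF_jd` : `Fr_N j_d = j_{N/d}`.
-/
import Fermat.Agent.S35.Nat.Fricke
import Fermat.Agent.S35.Nat.PushA

set_option autoImplicit false
set_option linter.unusedSectionVars false
set_option linter.unusedVariables false
set_option linter.style.haveILetI false
set_option synthInstance.maxHeartbeats 400000

noncomputable section

namespace Fermat.Agent.S35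

open UpperHalfPlane ModularCurve AlgebraicCurve CongruenceSubgroup Fermat.Agent.S24
  Fermat.Agent.G Fermat.Agent.S23 IntermediateField
open scoped MatrixGroups Manifold ModularForm Real

/-- transport of the norm along ring automorphisms of both fields: if `ψ ∘ e_K = e_L ∘ φ` then
`N_φ x = e_K⁻¹ (N_ψ (e_L x))`. -/
theorem s35nf_norm_equiv_equiv {K L : Type*} [Field K] [Field L] (φ ψ : K →+* L) (eK : K ≃+* K)
    (eL : L ≃+* L) (he : ∀ k, ψ (eK k) = eL (φ k)) (x : L) :
    @Algebra.norm K L _ _ φ.toAlgebra x = eK.symm (@Algebra.norm K L _ _ ψ.toAlgebra (eL x)) :=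
  @Algebra.norm_eq_of_equiv_equiv K L K L _ _ _ _ φ.toAlgebra ψ.toAlgebra eK eL (by
    ext k
    exact he k) x

section Setting

variable (N : ℕ) [NeZero N]

/-- `Fr_N G` is again (the function of) an element of `F_ℂ(N)`. -/
theorem s35nf_exists_wexp {y : gfcField N} {G : HolRing}
    (hG : HasCuspExp 1 (G : ℍ → ℂ) ((y : gfcField N) : LaurentSeries ℂ)) :
    ∃ u : gfcField N, HasCuspExp 1 (s35nfW N G : ℍ → ℂ) ((u : gfcField N) : LaurentSeries ℂ) :=
  gkm_mem_of_cusp _ (s35nfW_inv N (gkm_hol_invariant hG)) (s35nfW_cusp N (gkm_hol_cusp hG))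

theorem s35nf_exists_wR : ∃ φ : gfc_RBar N →+* gfcField N, ∀ x : gfc_RBar N,
    HasCuspExp 1 (s35nfW N (gfc_toHol N x) : ℍ → ℂ) ((φ x : gfcField N) : LaurentSeries ℂ) := by
  choose φ hφ using fun x : gfc_RBar N => s35nf_exists_wexp N (gkma_hasCuspExp_toHol x)
  have huniq : ∀ (x : gfc_RBar N) (u : gfcField N),
      HasCuspExp 1 (s35nfW N (gfc_toHol N x) : ℍ → ℂ) ((u : gfcField N) : LaurentSeries ℂ) →
        φ x = u :=
    fun x u hu => gkmw_hol_unique (hφ x) hu
  refine ⟨{ toFun := φ, map_one' := ?_, map_mul' := ?_, map_zero' := ?_, map_add' := ?_ }, hφ⟩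
  · apply huniq
    rw [map_one, map_one]
    have := HasCuspExp.const (h := 1) (1 : ℂ)
    rw [map_one] at this
    exact this
  · intro x y
    apply huniq
    rw [map_mul, map_mul]
    exact gkmw_hol_mul (hφ x) (hφ y)
  · apply huniq
    rw [map_zero, map_zero]
    exact gkmw_hol_zero
  · intro x y
    apply huniq
    rw [map_add, map_add]
    exact (hφ x).add (hφ y)

/-- `Fr_N` on `gfc_RBar N`. -/
def s35nfWR : gfc_RBar N →+* gfcField N := (s35nf_exists_wR N).choose

theorem s35nfWR_hol (x : gfc_RBar N) :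
    HasCuspExp 1 (s35nfW N (gfc_toHol N x) : ℍ → ℂ)
      ((s35nfWR N x : gfcField N) : LaurentSeries ℂ) :=
  (s35nf_exists_wR N).choose_spec x

theorem s35nfWR_injective : Function.Injective (s35nfWR N) := by
  rw [injective_iff_map_eq_zero]
  intro x hx
  have h1 := s35nfWR_hol N x
  have h2 : s35nfW N (gfc_toHol N x) = 0 := (gkmw_hol_eq_zero_iff h1).2 hx
  have h3 : gfc_toHol N x = 0 := s35nfW_injective N (by rw [h2, map_zero])
  exact (map_eq_zero_iff _ (gfc_toHol_injective N)).1 h3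

/-- **the Fricke endomorphism `Fr_N` of `F_ℂ(N)`.** -/
def s35nfWF : gfcField N →+* gfcField N :=
  gfc_liftF N (s35nfWR N) (s35nfWR_injective N)

theorem s35nfWF_coe (x : gfc_RBar N) : s35nfWF N (x : gfcField N) = s35nfWR N x :=
  gfc_liftF_apply N _ _ x

/-- if `y` is the holomorphic function `G` then `Fr y` is the holomorphic function `Fr_N G`. -/
theorem s35nfWF_hol {y : gfcField N} {G : HolRing}
    (hG : HasCuspExp 1 (G : ℍ → ℂ) ((y : gfcField N) : LaurentSeries ℂ)) :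
    HasCuspExp 1 (s35nfW N G : ℍ → ℂ) ((s35nfWF N y : gfcField N) : LaurentSeries ℂ) := by
  obtain ⟨u, hu⟩ := s35nf_exists_wexp N hG
  obtain ⟨a, s, hs, hys⟩ := gkma_exists_frac y
  have h1 : G * gfc_toHol N s = gfc_toHol N a := gkma_mul_toHol hG hys
  have h2 : s35nfW N G * s35nfW N (gfc_toHol N s) = s35nfW N (gfc_toHol N a) := by
    rw [← map_mul, h1]
  have h3 := gkmw_hol_mul hu (s35nfWR_hol N s)
  rw [h2] at h3
  have h4 : u * s35nfWR N s = s35nfWR N a := gkmw_hol_unique h3 (s35nfWR_hol N a)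
  have hs0 : s35nfWR N s ≠ 0 := (map_ne_zero_iff _ (s35nfWR_injective N)).2 hs
  have h5 : s35nfWF N y * s35nfWR N s = s35nfWR N a := by
    rw [← s35nfWF_coe, ← s35nfWF_coe, ← map_mul, hys]
  have h6 : u = s35nfWF N y := mul_right_cancel₀ hs0 (h4.trans h5.symm)
  rw [← h6]
  exact hu

theorem s35nfWF_algebraMap (c : ℂ) :
    s35nfWF N (algebraMap ℂ (gfcField N) c) = algebraMap ℂ (gfcField N) c := by
  have h1 : HasCuspExp 1 (HolRing.C c : ℍ → ℂ)
      (((algebraMap ℂ (gfcField N) c : gfcField N)) : LaurentSeries ℂ) := by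
    rw [gfc_deg_coe_algebraMap]
    exact HasCuspExp.const c
  have h2 := s35nfWF_hol N h1
  have h3 : s35nfW N (HolRing.C c) = HolRing.C c := rfl
  rw [h3] at h2
  exact gkmw_hol_unique h2 h1

/-- `Fr_N` is an involution. -/
theorem s35nfWF_WF (y : gfcField N) : s35nfWF N (s35nfWF N y) = y := by
  have key : (s35nfWF N).comp (s35nfWF N) = RingHom.id (gfcField N) := by
    refine gfc_embcusp_ringHom_ext N fun x => ?_
    show s35nfWF N (s35nfWF N (x : gfcField N)) = (x : gfcField N)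
    have h0 := gkma_hasCuspExp_toHol x
    have h2 := s35nfWF_hol N (s35nfWF_hol N h0)
    rw [s35nfW_W] at h2
    exact gkmw_hol_unique h2 h0
  exact RingHom.congr_fun key y

/-- **the Fricke involution.** -/
def s35nfWEquiv : gfcField N ≃+* gfcField N :=
  RingEquiv.ofBijective (s35nfWF N)
    ⟨(s35nfWF N).injective, fun y => ⟨s35nfWF N y, s35nfWF_WF N y⟩⟩

theorem s35nfWEquiv_apply (y : gfcField N) : s35nfWEquiv N y = s35nfWF N y := rfl

theorem s35nfWEquiv_symm_apply (y : gfcField N) : (s35nfWEquiv N).symm y = s35nfWF N y := by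
  rw [RingEquiv.symm_apply_eq, s35nfWEquiv_apply, s35nfWF_WF]

/-- `Fr_N` and multipliers. -/
theorem s35nf_rel_W {n : ℕ} {χ : Gamma0 N →* ℂˣ} {x : gfcField N} (h : GkmRel N n χ x) :
    GkmRel N n (χ.comp (s35nfConj N)) (s35nfWF N x) := by
  obtain ⟨b, hb, H, hH, hm⟩ := h
  refine ⟨s35nfWF N b, (map_ne_zero _).2 hb, s35nfW N H, ?_, s35nfW_mult N hm⟩
  have h1 := s35nfWF_hol N hH
  rw [map_pow, map_mul, map_pow] at h1
  exact h1

end Setting

/-! ### two levels -/

section TwoLevels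

variable (M q : ℕ) [NeZero M] [NeZero q]

/-- `Fr_{M q} ∘ α = β ∘ Fr_M`. -/
theorem s35nfWF_alpha (k : gfcField M) :
    s35nfWF (M * q) (heckeAlphaBar ℂ M q k) = heckeBetaBar ℂ M q (s35nfWF M k) := by
  have key : (s35nfWF (M * q)).comp (heckeAlphaBar ℂ M q).toRingHom =
      (heckeBetaBar ℂ M q).toRingHom.comp (s35nfWF M) := by
    refine gfc_embcusp_ringHom_ext M fun x => ?_
    show s35nfWF (M * q) (heckeAlphaBar ℂ M q (x : gfcField M)) =
      heckeBetaBar ℂ M q (s35nfWF M (x : gfcField M))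
    have hF : HasCuspExp 1 (gfc_toHol M x : ℍ → ℂ)
        (((heckeAlphaBar ℂ M q (x : gfcField M) : gfcField (M * q))) : LaurentSeries ℂ) := by
      rw [coe_heckeAlphaBar]
      exact gkma_hasCuspExp_toHol x
    have h1 := s35nfWF_hol (M * q) hF
    rw [s35nfW_alpha M q] at h1
    have h2 := s35natDelta_hasCuspExp q (s35nfWF_hol M (gkma_hasCuspExp_toHol x))
    rw [← coe_heckeBetaBar (N := M)] at h2
    exact gkmw_hol_unique h1 h2
  exact RingHom.congr_fun key k

/-- `Fr_{M q} ∘ β = α ∘ Fr_M`. -/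
theorem s35nfWF_beta (k : gfcField M) :
    s35nfWF (M * q) (heckeBetaBar ℂ M q k) = heckeAlphaBar ℂ M q (s35nfWF M k) := by
  have key : (s35nfWF (M * q)).comp (heckeBetaBar ℂ M q).toRingHom =
      (heckeAlphaBar ℂ M q).toRingHom.comp (s35nfWF M) := by
    refine gfc_embcusp_ringHom_ext M fun x => ?_
    show s35nfWF (M * q) (heckeBetaBar ℂ M q (x : gfcField M)) =
      heckeAlphaBar ℂ M q (s35nfWF M (x : gfcField M))
    have hF : HasCuspExp 1 (s35natDelta q (gfc_toHol M x) : ℍ → ℂ)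
        (((heckeBetaBar ℂ M q (x : gfcField M) : gfcField (M * q))) : LaurentSeries ℂ) := by
      rw [coe_heckeBetaBar]
      exact s35natDelta_hasCuspExp q (gkma_hasCuspExp_toHol x)
    have h1 := s35nfWF_hol (M * q) hF
    rw [s35nfW_beta M q] at h1
    have h2 : HasCuspExp 1 (s35nfW M (gfc_toHol M x) : ℍ → ℂ)
        (((heckeAlphaBar ℂ M q (s35nfWF M (x : gfcField M)) : gfcField (M * q))) :
          LaurentSeries ℂ) := by
      rw [coe_heckeAlphaBar]
      exact s35nfWF_hol M (gkma_hasCuspExp_toHol x)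
    exact gkmw_hol_unique h1 h2
  exact RingHom.congr_fun key k

/-- `N_β y = Fr_M (N_α (Fr_{M q} y))`. -/
theorem s35nf_norm_beta (y : gfcField (M * q)) :
    (letI := algebraAlong (heckeBetaBar ℂ M q); Algebra.norm (gfcField M)) y =
      s35nfWF M ((letI := algebraAlong (heckeAlphaBar ℂ M q); Algebra.norm (gfcField M))
        (s35nfWF (M * q) y)) := by
  have h := s35nf_norm_equiv_equiv (heckeBetaBar ℂ M q).toRingHom (heckeAlphaBar ℂ M q).toRingHom
    (s35nfWEquiv M) (s35nfWEquiv (M * q)) (fun k => (s35nfWF_beta M q k).symm) y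
  rw [s35nfWEquiv_symm_apply] at h
  exact h

/-- the character of (NAT-φ): `(transfer (χ ∘ conj_{w_{M q}})) ∘ conj_{w_M}`. -/
def s35nfTransfer {A : Type*} [CommGroup A] (χ : Gamma0 (M * q) →* A) : Gamma0 M →* A :=
  (s35natTransfer (χ.comp (s35nfConj (M * q)))).comp (s35nfConj M)

theorem s35nfTransfer_apply {A : Type*} [CommGroup A] (χ : Gamma0 (M * q) →* A) (γ : Gamma0 M) :
    s35nfTransfer M q χ γ = s35natTransfer (χ.comp (s35nfConj (M * q))) (s35nfConj M γ) := rfl

/-- **(NAT-φ) over `ℂ`, all `M, q`.** -/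
theorem s35nf_rel_beta {n : ℕ} {χ : Gamma0 (M * q) →* ℂˣ} {x : gfcField (M * q)}
    (h : GkmRel (M * q) n χ x) :
    GkmRel M n (s35nfTransfer M q χ)
      ((letI := algebraAlong (heckeBetaBar ℂ M q); Algebra.norm (gfcField M)) x) := by
  rw [s35nf_norm_beta M q]
  exact s35nf_rel_W M (s35nat_rel_alpha M q (s35nf_rel_W (M * q) h))

end TwoLevels

/-! ### the generators -/

/-- `Fr_N j_d = j_{N/d}`. -/
theorem s35nfWF_jd (d e : ℕ) [NeZero d] [NeZero e] :
    s35nfWF (d * e) (gfc_jdBar (d * e) d (dvd_mul_right d e)) =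
      gfc_jdBar (d * e) e (dvd_mul_left e d) := by
  have h0 := gkma_hasCuspExp_toHol (N := d * e)
    ⟨gfc_jdBar (d * e) d (dvd_mul_right d e), gfc_jdBar_mem_RBar (d * e) d (dvd_mul_right d e)⟩
  rw [gfc_toHol_jdBar] at h0
  have h1 := s35nfWF_hol (d * e) h0
  rw [s35nfW_jdHol] at h1
  have h2 := gkma_hasCuspExp_toHol (N := d * e)
    ⟨gfc_jdBar (d * e) e (dvd_mul_left e d), gfc_jdBar_mem_RBar (d * e) e (dvd_mul_left e d)⟩
  rw [gfc_toHol_jdBar] at h2
  exact gkmw_hol_unique h1 h2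

end Fermat.Agent.S35
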