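/-
S35 / Program T, leaf NAT (helper22), file 6: THE ATKIN-LEHNER AUTOMORPHISM `w` OF `F_ℂ(M q)`.

* `s35natWF : F_ℂ(M q) →+* F_ℂ(M q)` with `s35natWF_hol` : if `y` is the holomorphic function `G` then
  `w y` is the holomorphic function `W G`;
* `s35natWF_alpha : w ∘ α = β`, `s35natWF_beta : w ∘ β = α`, `s35natWEquiv : F_ℂ(M q) ≃+* F_ℂ(M q)`;
* `s35nat_norm_beta` : `N_β y = N_α (w y)`;
* `s35nat_rel_beta` : **(NAT-φ) over `ℂ`**: `GkmRel (M q) n χ x → GkmRel M n (transfer (χ ∘ conj_W)) (N_β x)`.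
-/
import Fermat.Agent.S35.Nat.AL
import Fermat.Agent.S35.Nat.PushA

set_option autoImplicit false
set_option linter.unusedSectionVars false
set_option linter.unusedVariables false
set_option linter.style.haveILetI false
set_option synthInstance.maxHeartbeats 400000

noncomputable section

namespace Fermat.Agent.S35

open UpperHalfPlane ModularCurve AlgebraicCurve CongruenceSubgroup Fermat.Agent.S24
  Fermat.Agent.G Fermat.Agent.S23 IntermediateField
open scoped MatrixGroups Manifold ModularForm Real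

section Setting

variable (M q : ℕ) [NeZero M] [NeZero q] (hq : q.Prime) (hqM : ¬ q ∣ M)

include hq hqM

/-- `W G` is again (the function of) an element of `F_ℂ(M q)`. -/
theorem s35nat_exists_wexp {y : gfcField (M * q)} {G : HolRing}
    (hG : HasCuspExp 1 (G : ℍ → ℂ) ((y : gfcField (M * q)) : LaurentSeries ℂ)) :
    ∃ u : gfcField (M * q), HasCuspExp 1 (s35natW M q hq hqM G : ℍ → ℂ)
      ((u : gfcField (M * q)) : LaurentSeries ℂ) :=
  gkm_mem_of_cusp _ (s35natW_inv M q hq hqM (gkm_hol_invariant hG))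
    (s35natW_cusp M q hq hqM (gkm_hol_cusp hG))

theorem s35nat_exists_wR : ∃ φ : gfc_RBar (M * q) →+* gfcField (M * q), ∀ x : gfc_RBar (M * q),
    HasCuspExp 1 (s35natW M q hq hqM (gfc_toHol (M * q) x) : ℍ → ℂ)
      ((φ x : gfcField (M * q)) : LaurentSeries ℂ) := by
  choose φ hφ using fun x : gfc_RBar (M * q) =>
    s35nat_exists_wexp M q hq hqM (gkma_hasCuspExp_toHol x)
  have huniq : ∀ (x : gfc_RBar (M * q)) (u : gfcField (M * q)),
      HasCuspExp 1 (s35natW M q hq hqM (gfc_toHol (M * q) x) : ℍ → ℂ)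
        ((u : gfcField (M * q)) : LaurentSeries ℂ) → φ x = u :=
    fun x u hu => gkmw_hol_unique (hφ x) hu
  refine ⟨{ toFun := φ, map_one' := ?_, map_mul' := ?_, map_zero' := ?_, map_add' := ?_ }, hφ⟩
  · apply huniq
    rw [map_one, map_one]
    have := HasCuspExp.const (h := 1) (1 : ℂ)
    rw [map_one] at this
    exact this
  · intro x y
    apply huniq
    rw [map_mul, map_mul]
    exact gkmw_hol_mul (hφ x) (hφ y)
  · apply huniq
    rw [map_zero, map_zero]
    exact gkmw_hol_zero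
  · intro x y
    apply huniq
    rw [map_add, map_add]
    exact (hφ x).add (hφ y)

/-- `w` on `gfc_RBar (M q)`. -/
def s35natWR : gfc_RBar (M * q) →+* gfcField (M * q) := (s35nat_exists_wR M q hq hqM).choose

theorem s35natWR_hol (x : gfc_RBar (M * q)) :
    HasCuspExp 1 (s35natW M q hq hqM (gfc_toHol (M * q) x) : ℍ → ℂ)
      ((s35natWR M q hq hqM x : gfcField (M * q)) : LaurentSeries ℂ) :=
  (s35nat_exists_wR M q hq hqM).choose_spec x

theorem s35natWR_injective : Function.Injective (s35natWR M q hq hqM) := by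
  rw [injective_iff_map_eq_zero]
  intro x hx
  have h1 := s35natWR_hol M q hq hqM x
  have h2 : s35natW M q hq hqM (gfc_toHol (M * q) x) = 0 := (gkmw_hol_eq_zero_iff h1).2 hx
  have h3 : gfc_toHol (M * q) x = 0 := s35natW_injective M q hq hqM (by rw [h2, map_zero])
  exact (map_eq_zero_iff _ (gfc_toHol_injective (M * q))).1 h3

/-- **the Atkin-Lehner endomorphism `w` of `F_ℂ(M q)`.** -/
def s35natWF : gfcField (M * q) →+* gfcField (M * q) :=
  gfc_liftF (M * q) (s35natWR M q hq hqM) (s35natWR_injective M q hq hqM)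

theorem s35natWF_coe (x : gfc_RBar (M * q)) :
    s35natWF M q hq hqM (x : gfcField (M * q)) = s35natWR M q hq hqM x :=
  gfc_liftF_apply (M * q) _ _ x

/-- if `y` is the holomorphic function `G` then `w y` is the holomorphic function `W G`. -/
theorem s35natWF_hol {y : gfcField (M * q)} {G : HolRing}
    (hG : HasCuspExp 1 (G : ℍ → ℂ) ((y : gfcField (M * q)) : LaurentSeries ℂ)) :
    HasCuspExp 1 (s35natW M q hq hqM G : ℍ → ℂ)
      ((s35natWF M q hq hqM y : gfcField (M * q)) : LaurentSeries ℂ) := by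
  obtain ⟨u, hu⟩ := s35nat_exists_wexp M q hq hqM hG
  obtain ⟨a, s, hs, hys⟩ := gkma_exists_frac y
  have h1 : G * gfc_toHol (M * q) s = gfc_toHol (M * q) a := gkma_mul_toHol hG hys
  have h2 : s35natW M q hq hqM G * s35natW M q hq hqM (gfc_toHol (M * q) s) =
      s35natW M q hq hqM (gfc_toHol (M * q) a) := by
    rw [← map_mul, h1]
  have h3 := gkmw_hol_mul hu (s35natWR_hol M q hq hqM s)
  rw [h2] at h3
  have h4 : u * s35natWR M q hq hqM s = s35natWR M q hq hqM a :=
    gkmw_hol_unique h3 (s35natWR_hol M q hq hqM a)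
  have hs0 : s35natWR M q hq hqM s ≠ 0 :=
    (map_ne_zero_iff _ (s35natWR_injective M q hq hqM)).2 hs
  have h5 : s35natWF M q hq hqM y * s35natWR M q hq hqM s = s35natWR M q hq hqM a := by
    rw [← s35natWF_coe, ← s35natWF_coe, ← map_mul, hys]
  have h6 : u = s35natWF M q hq hqM y := mul_right_cancel₀ hs0 (h4.trans h5.symm)
  rw [← h6]
  exact hu

theorem s35natWF_algebraMap (c : ℂ) :
    s35natWF M q hq hqM (algebraMap ℂ (gfcField (M * q)) c) = algebraMap ℂ (gfcField (M * q)) c := by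
  have h1 : HasCuspExp 1 (HolRing.C c : ℍ → ℂ)
      (((algebraMap ℂ (gfcField (M * q)) c : gfcField (M * q))) : LaurentSeries ℂ) := by
    rw [gfc_deg_coe_algebraMap]
    exact HasCuspExp.const c
  have h2 := s35natWF_hol M q hq hqM h1
  have h3 : s35natW M q hq hqM (HolRing.C c) = HolRing.C c := rfl
  rw [h3] at h2
  exact gkmw_hol_unique h2 h1

/-- `w ∘ α = β`. -/
theorem s35natWF_alpha (k : gfcField M) :
    s35natWF M q hq hqM (heckeAlphaBar ℂ M q k) = heckeBetaBar ℂ M q k := by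
  have key : (s35natWF M q hq hqM).comp (heckeAlphaBar ℂ M q).toRingHom =
      (heckeBetaBar ℂ M q).toRingHom := by
    refine gfc_embcusp_ringHom_ext M fun x => ?_
    show s35natWF M q hq hqM (heckeAlphaBar ℂ M q (x : gfcField M)) =
      heckeBetaBar ℂ M q (x : gfcField M)
    have hF : HasCuspExp 1 (gfc_toHol M x : ℍ → ℂ)
        (((heckeAlphaBar ℂ M q (x : gfcField M) : gfcField (M * q))) : LaurentSeries ℂ) := by
      rw [coe_heckeAlphaBar]
      exact gkma_hasCuspExp_toHol x
    have h1 := s35natWF_hol M q hq hqM hF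
    rw [s35natW_of_inv M q hq hqM
      (fun γ hγ => gfc_smul_toHol_of_mem_Gamma0 M γ hγ x)] at h1
    have h2 := s35natDelta_hasCuspExp q (gkma_hasCuspExp_toHol x)
    rw [← coe_heckeBetaBar (N := M)] at h2
    exact gkmw_hol_unique h1 h2
  exact RingHom.congr_fun key k

/-- `w ∘ β = α`. -/
theorem s35natWF_beta (k : gfcField M) :
    s35natWF M q hq hqM (heckeBetaBar ℂ M q k) = heckeAlphaBar ℂ M q k := by
  have key : (s35natWF M q hq hqM).comp (heckeBetaBar ℂ M q).toRingHom =
      (heckeAlphaBar ℂ M q).toRingHom := by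
    refine gfc_embcusp_ringHom_ext M fun x => ?_
    show s35natWF M q hq hqM (heckeBetaBar ℂ M q (x : gfcField M)) =
      heckeAlphaBar ℂ M q (x : gfcField M)
    have hF : HasCuspExp 1 (s35natDelta q (gfc_toHol M x) : ℍ → ℂ)
        (((heckeBetaBar ℂ M q (x : gfcField M) : gfcField (M * q))) : LaurentSeries ℂ) := by
      rw [coe_heckeBetaBar]
      exact s35natDelta_hasCuspExp q (gkma_hasCuspExp_toHol x)
    have h1 := s35natWF_hol M q hq hqM hF
    rw [s35natW_delta M q hq hqM
      (fun γ hγ => gfc_smul_toHol_of_mem_Gamma0 M γ hγ x)] at h1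
    have h2 : HasCuspExp 1 (gfc_toHol M x : ℍ → ℂ)
        (((heckeAlphaBar ℂ M q (x : gfcField M) : gfcField (M * q))) : LaurentSeries ℂ) := by
      rw [coe_heckeAlphaBar]
      exact gkma_hasCuspExp_toHol x
    exact gkmw_hol_unique h1 h2
  exact RingHom.congr_fun key k

/-! ### `w` is an automorphism -/

omit hq hqM in
theorem s35nat_jd_alpha (d : ℕ) [NeZero d] (hd : d ∣ M) :
    gfc_jdBar (M * q) d (Dvd.dvd.mul_right hd q) = heckeAlphaBar ℂ M q (gfc_jdBar M d hd) := by
  apply Subtype.ext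
  rw [coe_heckeAlphaBar, gfc_coe_jdBar, gfc_coe_jdBar]

omit hq hqM in
theorem s35nat_jd_beta (d : ℕ) [NeZero d] (hd : d ∣ M) :
    gfc_jdBar (M * q) (q * d) (mul_comm M q ▸ Nat.mul_dvd_mul_left q hd) =
      heckeBetaBar ℂ M q (gfc_jdBar M d hd) := by
  apply Subtype.ext
  rw [coe_heckeBetaBar, gfc_coe_jdBar, gfc_coe_jdBar, ← qExpand_qExpand, coeffEmb,
    ModularCurve.coeffMap_qExpand]

theorem s35natWF_range_RBar (x : gfc_RBar (M * q)) :
    (x : gfcField (M * q)) ∈ (s35natWF M q hq hqM).fieldRange := by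
  obtain ⟨x, hx⟩ := x
  induction hx using Algebra.adjoin_induction with
  | mem y hy =>
    obtain ⟨d, hd0, hd, rfl⟩ := hy
    by_cases hqd : q ∣ d
    · obtain ⟨d', rfl⟩ := hqd
      have hd'0 : NeZero d' := ⟨fun h => NeZero.ne (q * d') (by rw [h, mul_zero])⟩
      have hd' : d' ∣ M := by
        rw [mul_comm M q] at hd
        exact (Nat.mul_dvd_mul_iff_left hq.pos).1 hd
      refine ⟨heckeAlphaBar ℂ M q (gfc_jdBar M d' hd'), ?_⟩
      rw [s35natWF_alpha, ← s35nat_jd_beta M q d' hd']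
    · have hcop : Nat.Coprime d q := ((Nat.Prime.coprime_iff_not_dvd hq).mpr hqd).symm
      have hd' : d ∣ M := hcop.dvd_of_dvd_mul_right hd
      refine ⟨heckeBetaBar ℂ M q (gfc_jdBar M d hd'), ?_⟩
      rw [s35natWF_beta, ← s35nat_jd_alpha M q d hd']
  | algebraMap c => exact ⟨algebraMap ℂ _ c, s35natWF_algebraMap M q hq hqM c⟩
  | add y z _ _ hy hz => exact add_mem hy hz
  | mul y z _ _ hy hz => exact mul_mem hy hz

theorem s35natWF_surjective : Function.Surjective (s35natWF M q hq hqM) := by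
  intro y
  obtain ⟨a, s, hs, hys⟩ := gkma_exists_frac y
  have hs0 : (s : gfcField (M * q)) ≠ 0 := fun h0 => hs (Subtype.ext h0)
  have hy : y = (a : gfcField (M * q)) / (s : gfcField (M * q)) := by
    rw [← hys, mul_div_cancel_right₀ _ hs0]
  have h := div_mem (s35natWF_range_RBar M q hq hqM a) (s35natWF_range_RBar M q hq hqM s)
  rw [← hy] at h
  exact h

/-- **the Atkin-Lehner automorphism.** -/
def s35natWEquiv : gfcField (M * q) ≃+* gfcField (M * q) :=
  RingEquiv.ofBijective (s35natWF M q hq hqM)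
    ⟨(s35natWF M q hq hqM).injective, s35natWF_surjective M q hq hqM⟩

/-- `N_β y = N_α (w y)`. -/
theorem s35nat_norm_beta (y : gfcField (M * q)) :
    (letI := algebraAlong (heckeBetaBar ℂ M q); Algebra.norm (gfcField M)) y =
      (letI := algebraAlong (heckeAlphaBar ℂ M q); Algebra.norm (gfcField M))
        (s35natWF M q hq hqM y) :=
  (s35nat_norm_comp_equiv (heckeBetaBar ℂ M q).toRingHom (heckeAlphaBar ℂ M q).toRingHom
    (s35natWEquiv M q hq hqM) (fun k => s35natWF_beta M q hq hqM k) y).symm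

/-! ### (NAT-φ) over `ℂ` -/

theorem s35nat_rel_W {n : ℕ} {χ : Gamma0 (M * q) →* ℂˣ} {x : gfcField (M * q)}
    (h : GkmRel (M * q) n χ x) :
    GkmRel (M * q) n (χ.comp (s35natConjW M q hq hqM)) (s35natWF M q hq hqM x) := by
  obtain ⟨b, hb, H, hH, hm⟩ := h
  refine ⟨s35natWF M q hq hqM b, (map_ne_zero _).2 hb, s35natW M q hq hqM H, ?_,
    s35natW_mult M q hq hqM hm⟩
  have h1 := s35natWF_hol M q hq hqM hH
  rw [map_pow, map_mul, map_pow] at h1
  exact h1

/-- **(NAT-φ) over `ℂ`.** -/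
theorem s35nat_rel_beta {n : ℕ} {χ : Gamma0 (M * q) →* ℂˣ} {x : gfcField (M * q)}
    (h : GkmRel (M * q) n χ x) :
    GkmRel M n (s35natTransfer (χ.comp (s35natConjW M q hq hqM)))
      ((letI := algebraAlong (heckeBetaBar ℂ M q); Algebra.norm (gfcField M)) x) := by
  rw [s35nat_norm_beta M q hq hqM]
  exact s35nat_rel_alpha M q (s35nat_rel_W M q hq hqM h)

end Setting

end Fermat.Agent.S35
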