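/-
S35 / Program T, leaf NAT (helper22), file 7: **(NAT-φ)** the push-forward `φ_* : J₀(M q) → J₀(M)`
along `β = heckeBetaBar` (`f(τ) ↦ f(q τ)`) and the Kummer points; `q` prime, `q ∤ M`.

* `s35natWBar : F_ℚ̄(M q) ≃+* F_ℚ̄(M q)` : the Atkin-Lehner automorphism over `ℚ̄`
  (`gdqIota ∘ w_ℚ̄ = w ∘ gdqIota`, `w_ℚ̄ ∘ β = α`);
* `s35nat_norm_iota_beta` : the norm along `β` commutes with the base change `ℚ̄ → ℂ`;
* `s35natPushB M q` : `φ_*`;
* `s35nat_pt_pushB` : **`GktfPt (M q) n ψ P → GktfPt M n (transfer (ψ ∘ conj_W)) (φ_* P)`.**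
-/
import Fermat.Agent.S35.Nat.ALField

set_option autoImplicit false
set_option linter.unusedSectionVars false
set_option linter.unusedVariables false
set_option linter.style.haveILetI false
set_option synthInstance.maxHeartbeats 400000

noncomputable section

namespace Fermat.Agent.S35

open UpperHalfPlane ModularCurve AlgebraicCurve CongruenceSubgroup Fermat.Agent.S24
  Fermat.Agent.G Fermat.Agent.S23 IntermediateField
open scoped MatrixGroups Manifold ModularForm Real

/-! ### base change of the generators -/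

section Gen

theorem s35nat_iota_jdBar (N : ℕ) [NeZero N] (d : ℕ) [NeZero d] (hd : d ∣ N) :
    gdqIota N (jdBar N d hd) = gfc_jdBar N d hd := by
  apply Subtype.ext
  rw [coe_gdqIota, coe_jdBar, gfc_coe_jdBar, bridge_coeffMap_iotaBar_coeffEmb_qExpand,
    ← gfc_bridge_coeffMap_iotaBar_coeffEmb_qExpand, s35nat_coeffMap_iota]

theorem s35nat_iota_algebraMap (N : ℕ) [NeZero N] (c : QBar) :
    gdqIota N (algebraMap QBar (modularFunctionFieldBar N) c) =
      algebraMap ℂ (gfcField N) (iotaBar c) := by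
  apply Subtype.ext
  rw [coe_gdqIota, gfc_deg_coe_algebraMap]
  exact bridge_coeffMap_iotaBar_algebraMap c

variable (M q : ℕ) [NeZero M] [NeZero q]

theorem s35nat_iota_beta (k : modularFunctionFieldBar M) :
    gdqIota (M * q) (heckeBetaBar QBar M q k) = heckeBetaBar ℂ M q (gdqIota M k) := by
  apply Subtype.ext
  rw [coe_gdqIota, coe_heckeBetaBar, coe_heckeBetaBar, coe_gdqIota,
    ModularCurve.coeffMap_qExpand]

theorem s35nat_jdBar_alpha (d : ℕ) [NeZero d] (hd : d ∣ M) :
    jdBar (M * q) d (Dvd.dvd.mul_right hd q) = heckeAlphaBar QBar M q (jdBar M d hd) := by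
  apply Subtype.ext
  rw [coe_heckeAlphaBar, coe_jdBar, coe_jdBar]

theorem s35nat_jdBar_beta (d : ℕ) [NeZero d] (hd : d ∣ M) :
    jdBar (M * q) (q * d) (mul_comm M q ▸ Nat.mul_dvd_mul_left q hd) =
      heckeBetaBar QBar M q (jdBar M d hd) := by
  apply Subtype.ext
  rw [coe_heckeBetaBar, coe_jdBar, coe_jdBar, ← qExpand_qExpand, coeffEmb,
    ModularCurve.coeffMap_qExpand]

end Gen

section Setting

variable (M q : ℕ) [NeZero M] [NeZero q] (hq : q.Prime) (hqM : ¬ q ∣ M)

include hq hqM

/-! ### `w` over `ℚ̄` -/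

/-- generation: a property of `F_ℚ̄(M q)` which holds for the constants, for `α F_ℚ̄(M)`, for
`β F_ℚ̄(M)` and is stable under the field operations holds everywhere. -/
theorem s35nat_gen_induction (P : modularFunctionFieldBar (M * q) → Prop)
    (hc : ∀ c : QBar, P (algebraMap QBar _ c))
    (hα : ∀ k : modularFunctionFieldBar M, P (heckeAlphaBar QBar M q k))
    (hβ : ∀ k : modularFunctionFieldBar M, P (heckeBetaBar QBar M q k))
    (hadd : ∀ x y, P x → P y → P (x + y)) (hmul : ∀ x y, P x → P y → P (x * y))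
    (hinv : ∀ x, P x → P x⁻¹) (f : modularFunctionFieldBar (M * q)) : P f := by
  have hf : f ∈ IntermediateField.adjoin QBar (jdSet (M * q)) := by
    rw [adjoin_jdSet_eq_top]
    exact IntermediateField.mem_top
  induction hf using IntermediateField.adjoin_induction with
  | mem y hy =>
    obtain ⟨d, hd0, hd, rfl⟩ := hy
    by_cases hqd : q ∣ d
    · obtain ⟨d', rfl⟩ := hqd
      have hd'0 : NeZero d' := ⟨fun h => NeZero.ne (q * d') (by rw [h, mul_zero])⟩
      have hd' : d' ∣ M := by
        rw [mul_comm M q] at hd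
        exact (Nat.mul_dvd_mul_iff_left hq.pos).1 hd
      have := hβ (jdBar M d' hd')
      rwa [← s35nat_jdBar_beta M q d' hd'] at this
    · have hcop : Nat.Coprime d q := ((Nat.Prime.coprime_iff_not_dvd hq).mpr hqd).symm
      have hd' : d ∣ M := hcop.dvd_of_dvd_mul_right hd
      have := hα (jdBar M d hd')
      rwa [← s35nat_jdBar_alpha M q d hd'] at this
  | algebraMap c => exact hc c
  | add x y _ _ hx hy => exact hadd x y hx hy
  | inv x _ hx => exact hinv x hx
  | mul x y _ _ hx hy => exact hmul x y hx hy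

/-- `w` preserves the `ℚ̄`-rational functions. -/
theorem s35nat_exists_wBar (f : modularFunctionFieldBar (M * q)) :
    ∃ f' : modularFunctionFieldBar (M * q),
      gdqIota (M * q) f' = s35natWF M q hq hqM (gdqIota (M * q) f) := by
  refine s35nat_gen_induction M q hq hqM
    (fun f => ∃ f' : modularFunctionFieldBar (M * q),
      gdqIota (M * q) f' = s35natWF M q hq hqM (gdqIota (M * q) f)) ?_ ?_ ?_ ?_ ?_ ?_ f
  · intro c
    exact ⟨algebraMap QBar _ c, by rw [s35nat_iota_algebraMap, s35natWF_algebraMap]⟩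
  · intro k
    exact ⟨heckeBetaBar QBar M q k, by
      rw [s35nat_iota_beta, s35nat_iota_alpha, s35natWF_alpha]⟩
  · intro k
    exact ⟨heckeAlphaBar QBar M q k, by
      rw [s35nat_iota_beta, s35nat_iota_alpha, s35natWF_beta]⟩
  · rintro x y ⟨x', hx⟩ ⟨y', hy⟩
    exact ⟨x' + y', by rw [map_add, map_add, map_add, hx, hy]⟩
  · rintro x y ⟨x', hx⟩ ⟨y', hy⟩
    exact ⟨x' * y', by rw [map_mul, map_mul, map_mul, hx, hy]⟩
  · rintro x ⟨x', hx⟩
    exact ⟨x'⁻¹, by rw [map_inv₀, map_inv₀, map_inv₀, hx]⟩

/-- `w` over `ℚ̄`, as a function. -/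
def s35natWBarFun (f : modularFunctionFieldBar (M * q)) : modularFunctionFieldBar (M * q) :=
  (s35nat_exists_wBar M q hq hqM f).choose

theorem s35natWBarFun_spec (f : modularFunctionFieldBar (M * q)) :
    gdqIota (M * q) (s35natWBarFun M q hq hqM f) =
      s35natWF M q hq hqM (gdqIota (M * q) f) :=
  (s35nat_exists_wBar M q hq hqM f).choose_spec

/-- `w` over `ℚ̄`, as a ring homomorphism. -/
def s35natWBarHom : modularFunctionFieldBar (M * q) →+* modularFunctionFieldBar (M * q) where
  toFun := s35natWBarFun M q hq hqM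
  map_one' := (gdqIota (M * q)).injective (by rw [s35natWBarFun_spec, map_one, map_one])
  map_mul' x y := (gdqIota (M * q)).injective (by
    rw [s35natWBarFun_spec, map_mul, map_mul, map_mul, s35natWBarFun_spec, s35natWBarFun_spec])
  map_zero' := (gdqIota (M * q)).injective (by rw [s35natWBarFun_spec, map_zero, map_zero])
  map_add' x y := (gdqIota (M * q)).injective (by
    rw [s35natWBarFun_spec, map_add, map_add, map_add, s35natWBarFun_spec, s35natWBarFun_spec])

theorem s35natWBarHom_spec (f : modularFunctionFieldBar (M * q)) :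
    gdqIota (M * q) (s35natWBarHom M q hq hqM f) =
      s35natWF M q hq hqM (gdqIota (M * q) f) :=
  s35natWBarFun_spec M q hq hqM f

theorem s35natWBarHom_alpha (k : modularFunctionFieldBar M) :
    s35natWBarHom M q hq hqM (heckeAlphaBar QBar M q k) = heckeBetaBar QBar M q k :=
  (gdqIota (M * q)).injective (by
    rw [s35natWBarHom_spec, s35nat_iota_alpha, s35natWF_alpha, s35nat_iota_beta])

theorem s35natWBarHom_beta (k : modularFunctionFieldBar M) :
    s35natWBarHom M q hq hqM (heckeBetaBar QBar M q k) = heckeAlphaBar QBar M q k :=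
  (gdqIota (M * q)).injective (by
    rw [s35natWBarHom_spec, s35nat_iota_beta, s35natWF_beta, s35nat_iota_alpha])

theorem s35natWBarHom_algebraMap (c : QBar) :
    s35natWBarHom M q hq hqM (algebraMap QBar _ c) = algebraMap QBar _ c :=
  (gdqIota (M * q)).injective (by
    rw [s35natWBarHom_spec, s35nat_iota_algebraMap, s35natWF_algebraMap])

theorem s35natWBarHom_surjective : Function.Surjective (s35natWBarHom M q hq hqM) := by
  intro f
  refine s35nat_gen_induction M q hq hqM
    (fun f => ∃ f' : modularFunctionFieldBar (M * q), s35natWBarHom M q hq hqM f' = f)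
    ?_ ?_ ?_ ?_ ?_ ?_ f
  · intro c
    exact ⟨_, s35natWBarHom_algebraMap M q hq hqM c⟩
  · intro k
    exact ⟨_, s35natWBarHom_beta M q hq hqM k⟩
  · intro k
    exact ⟨_, s35natWBarHom_alpha M q hq hqM k⟩
  · rintro x y ⟨x', rfl⟩ ⟨y', rfl⟩
    exact ⟨x' + y', map_add _ _ _⟩
  · rintro x y ⟨x', rfl⟩ ⟨y', rfl⟩
    exact ⟨x' * y', map_mul _ _ _⟩
  · rintro x ⟨x', rfl⟩
    exact ⟨x'⁻¹, map_inv₀ _ _⟩

/-- **the Atkin-Lehner automorphism over `ℚ̄`.** -/
def s35natWBar : modularFunctionFieldBar (M * q) ≃+* modularFunctionFieldBar (M * q) :=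
  RingEquiv.ofBijective (s35natWBarHom M q hq hqM)
    ⟨(s35natWBarHom M q hq hqM).injective, s35natWBarHom_surjective M q hq hqM⟩

/-! ### base change of the norm along `β` -/

/-- **the norm along `β` commutes with the base change `ℚ̄ → ℂ`.** -/
theorem s35nat_norm_iota_beta (f : modularFunctionFieldBar (M * q)) :
    gdqIota M ((letI := algebraAlong (heckeBetaBar QBar M q);
      Algebra.norm (modularFunctionFieldBar M)) f) =
    (letI := algebraAlong (heckeBetaBar ℂ M q); Algebra.norm (gfcField M))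
      (gdqIota (M * q) f) := by
  have h1 : (letI := algebraAlong (heckeBetaBar QBar M q);
      Algebra.norm (modularFunctionFieldBar M)) f =
      (letI := algebraAlong (heckeAlphaBar QBar M q);
        Algebra.norm (modularFunctionFieldBar M)) (s35natWBarHom M q hq hqM f) :=
    (s35nat_norm_comp_equiv (heckeBetaBar QBar M q).toRingHom (heckeAlphaBar QBar M q).toRingHom
      (s35natWBar M q hq hqM) (fun k => s35natWBarHom_beta M q hq hqM k) f).symm
  rw [h1, s35nat_norm_iota, s35natWBarHom_spec, s35nat_norm_beta M q hq hqM]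

/-! ### (NAT-φ) -/

omit hq hqM in
theorem s35nat_beta_normFormula :
    NormFormulaAlong QBar (heckeBetaBar QBar M q) (gff_beta_finite M q) :=
  gffa_along_normFormula (heckeBetaBar QBar M q) (gff_beta_finite M q) (isSepGen_jBar M)

omit hq hqM in
/-- the degeneracy push-forward `φ_* : J₀(M q) → J₀(M)` (along `f(τ) ↦ f(q τ)`). -/
def s35natPushB : JZero (M * q) →+ JZero M :=
  g37pPushAlong (heckeBetaBar QBar M q) (gff_beta_integral M q) (gff_beta_finite M q)
    (s35nat_beta_normFormula M q)

/-- **(NAT-φ)**: `φ_*` of the point of `ψ` is the point of the transfer of `ψ ∘ conj_W`. -/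
theorem s35nat_pt_pushB {n : ℕ} {ψ : Gamma0 (M * q) →* ℂˣ} {P : JZero (M * q)}
    (h : GktfPt (M * q) n ψ P) :
    GktfPt M n (s35natTransfer (ψ.comp (s35natConjW M q hq hqM))) (s35natPushB M q P) := by
  obtain ⟨f, hf, hrel, hrep⟩ := h
  refine ⟨(letI := algebraAlong (heckeBetaBar QBar M q);
    Algebra.norm (modularFunctionFieldBar M)) f,
    gff_norm_ne_zero (heckeBetaBar QBar M q) (gff_beta_finite M q) f hf, ?_, ?_⟩
  · rw [s35nat_norm_iota_beta M q hq hqM]
    exact s35nat_rel_beta M q hq hqM hrel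
  · exact s35nat_rep_push (heckeBetaBar QBar M q) (gff_beta_integral M q)
      (gff_beta_finite M q) (s35nat_beta_normFormula M q) hf hrep

end Setting

end Fermat.Agent.S35
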