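/-
S35 / S36, leaf NAT (helper22), file 12: **(NAT-φ) FOR ALL `M, q`** (no primality, no coprimality): the
push-forward `φ_* : J₀(M q) → J₀(M)` along `β = heckeBetaBar` (`f(τ) ↦ f(q τ)`) and the Kummer points,
through the Fricke involutions of both levels (`β = Fr_{M q} ∘ α ∘ Fr_M`).

* `s35nfWBar N : F_ℚ̄(N) ≃+* F_ℚ̄(N)` : the Fricke involution over `ℚ̄`
  (`gdqIota ∘ Fr_ℚ̄ = Fr ∘ gdqIota`);
* `s35nf_norm_iota_beta` : the norm along `β` commutes with the base change `ℚ̄ → ℂ`;
* `s35nf_pt_pushB` : **`GktfPt (M q) n ψ P → GktfPt M n (s35nfTransfer M q ψ) (s35natPushB M q P)`**,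
  `s35nfTransfer M q ψ = (transfer (ψ ∘ conj_{w_{M q}})) ∘ conj_{w_M}`.
-/
import Fermat.Agent.S35.Nat.FrickeField
import Fermat.Agent.S35.Nat.PushB

set_option autoImplicit false
set_option linter.unusedSectionVars false
set_option linter.unusedVariables false
set_option linter.style.haveILetI false
set_option synthInstance.maxHeartbeats 400000

noncomputable section

namespace Fermat.Agent.S35

open UpperHalfPlane ModularCurve AlgebraicCurve CongruenceSubgroup Fermat.Agent.S24
  Fermat.Agent.G Fermat.Agent.S23 IntermediateField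
open scoped MatrixGroups Manifold ModularForm Real

/-! ### `Fr_N` over `ℚ̄` -/

/-- `Fr_N j_d` is again a generator. -/
theorem s35nf_exists_jd (N d : ℕ) [NeZero N] [NeZero d] (hd : d ∣ N) :
    ∃ (e : ℕ) (_ : NeZero e) (he : e ∣ N), s35nfWF N (gfc_jdBar N d hd) = gfc_jdBar N e he := by
  obtain ⟨e, rfl⟩ := hd
  haveI : NeZero e := ⟨fun h => NeZero.ne (d * e) (by rw [h, mul_zero])⟩
  exact ⟨e, inferInstance, dvd_mul_left e d, s35nfWF_jd d e⟩

section Setting

variable (N : ℕ) [NeZero N]

/-- `Fr_N` preserves the `ℚ̄`-rational functions. -/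
theorem s35nf_exists_wBar (f : modularFunctionFieldBar N) :
    ∃ f' : modularFunctionFieldBar N, gdqIota N f' = s35nfWF N (gdqIota N f) := by
  have hf : f ∈ IntermediateField.adjoin QBar (jdSet N) := by
    rw [adjoin_jdSet_eq_top]
    exact IntermediateField.mem_top
  induction hf using IntermediateField.adjoin_induction with
  | mem y hy =>
    obtain ⟨d, hd0, hd, rfl⟩ := hy
    obtain ⟨e, he0, he, hjd⟩ := s35nf_exists_jd N d hd
    exact ⟨jdBar N e he, by rw [s35nat_iota_jdBar, s35nat_iota_jdBar, hjd]⟩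
  | algebraMap c =>
    exact ⟨algebraMap QBar _ c, by rw [s35nat_iota_algebraMap, s35nfWF_algebraMap]⟩
  | add x y _ _ hx hy =>
    obtain ⟨x', hx⟩ := hx
    obtain ⟨y', hy⟩ := hy
    exact ⟨x' + y', by rw [map_add, map_add, map_add, hx, hy]⟩
  | inv x _ hx =>
    obtain ⟨x', hx⟩ := hx
    exact ⟨x'⁻¹, by rw [map_inv₀, map_inv₀, map_inv₀, hx]⟩
  | mul x y _ _ hx hy =>
    obtain ⟨x', hx⟩ := hx
    obtain ⟨y', hy⟩ := hy
    exact ⟨x' * y', by rw [map_mul, map_mul, map_mul, hx, hy]⟩

/-- `Fr_N` over `ℚ̄`, as a function. -/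
def s35nfWBarFun (f : modularFunctionFieldBar N) : modularFunctionFieldBar N :=
  (s35nf_exists_wBar N f).choose

theorem s35nfWBarFun_spec (f : modularFunctionFieldBar N) :
    gdqIota N (s35nfWBarFun N f) = s35nfWF N (gdqIota N f) :=
  (s35nf_exists_wBar N f).choose_spec

/-- `Fr_N` over `ℚ̄`, as a ring homomorphism. -/
def s35nfWBarHom : modularFunctionFieldBar N →+* modularFunctionFieldBar N where
  toFun := s35nfWBarFun N
  map_one' := (gdqIota N).injective (by rw [s35nfWBarFun_spec, map_one, map_one])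
  map_mul' x y := (gdqIota N).injective (by
    rw [s35nfWBarFun_spec, map_mul, map_mul, map_mul, s35nfWBarFun_spec, s35nfWBarFun_spec])
  map_zero' := (gdqIota N).injective (by rw [s35nfWBarFun_spec, map_zero, map_zero])
  map_add' x y := (gdqIota N).injective (by
    rw [s35nfWBarFun_spec, map_add, map_add, map_add, s35nfWBarFun_spec, s35nfWBarFun_spec])

theorem s35nfWBarHom_spec (f : modularFunctionFieldBar N) :
    gdqIota N (s35nfWBarHom N f) = s35nfWF N (gdqIota N f) :=
  s35nfWBarFun_spec N f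

theorem s35nfWBarHom_WBarHom (f : modularFunctionFieldBar N) :
    s35nfWBarHom N (s35nfWBarHom N f) = f :=
  (gdqIota N).injective (by rw [s35nfWBarHom_spec, s35nfWBarHom_spec, s35nfWF_WF])

/-- **the Fricke involution over `ℚ̄`.** -/
def s35nfWBar : modularFunctionFieldBar N ≃+* modularFunctionFieldBar N :=
  RingEquiv.ofBijective (s35nfWBarHom N)
    ⟨(s35nfWBarHom N).injective, fun f => ⟨s35nfWBarHom N f, s35nfWBarHom_WBarHom N f⟩⟩

theorem s35nfWBar_apply (f : modularFunctionFieldBar N) : s35nfWBar N f = s35nfWBarHom N f := rfl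

theorem s35nfWBar_symm_apply (f : modularFunctionFieldBar N) :
    (s35nfWBar N).symm f = s35nfWBarHom N f := by
  rw [RingEquiv.symm_apply_eq, s35nfWBar_apply, s35nfWBarHom_WBarHom]

end Setting

/-! ### two levels -/

section TwoLevels

variable (M q : ℕ) [NeZero M] [NeZero q]

theorem s35nfWBarHom_beta (k : modularFunctionFieldBar M) :
    s35nfWBarHom (M * q) (heckeBetaBar QBar M q k) =
      heckeAlphaBar QBar M q (s35nfWBarHom M k) :=
  (gdqIota (M * q)).injective (by
    rw [s35nfWBarHom_spec, s35nat_iota_beta, s35nfWF_beta, s35nat_iota_alpha, s35nfWBarHom_spec])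

/-- **the norm along `β` commutes with the base change `ℚ̄ → ℂ`** (all `M, q`). -/
theorem s35nf_norm_iota_beta (f : modularFunctionFieldBar (M * q)) :
    gdqIota M ((letI := algebraAlong (heckeBetaBar QBar M q);
      Algebra.norm (modularFunctionFieldBar M)) f) =
    (letI := algebraAlong (heckeBetaBar ℂ M q); Algebra.norm (gfcField M))
      (gdqIota (M * q) f) := by
  have h1 : (letI := algebraAlong (heckeBetaBar QBar M q);
      Algebra.norm (modularFunctionFieldBar M)) f =
      s35nfWBarHom M ((letI := algebraAlong (heckeAlphaBar QBar M q);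
        Algebra.norm (modularFunctionFieldBar M)) (s35nfWBarHom (M * q) f)) := by
    have h := s35nf_norm_equiv_equiv (heckeBetaBar QBar M q).toRingHom
      (heckeAlphaBar QBar M q).toRingHom (s35nfWBar M) (s35nfWBar (M * q))
      (fun k => (s35nfWBarHom_beta M q k).symm) f
    rw [s35nfWBar_symm_apply] at h
    exact h
  rw [h1, s35nfWBarHom_spec, s35nat_norm_iota, s35nfWBarHom_spec, s35nf_norm_beta M q]

/-- **(NAT-φ), all `M, q`**: `φ_*` of the point of `ψ` is the point of
`(transfer (ψ ∘ conj_{w_{M q}})) ∘ conj_{w_M}`. -/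
theorem s35nf_pt_pushB {n : ℕ} {ψ : Gamma0 (M * q) →* ℂˣ} {P : JZero (M * q)}
    (h : GktfPt (M * q) n ψ P) :
    GktfPt M n (s35nfTransfer M q ψ) (s35natPushB M q P) := by
  obtain ⟨f, hf, hrel, hrep⟩ := h
  refine ⟨(letI := algebraAlong (heckeBetaBar QBar M q);
    Algebra.norm (modularFunctionFieldBar M)) f,
    gff_norm_ne_zero (heckeBetaBar QBar M q) (gff_beta_finite M q) f hf, ?_, ?_⟩
  · rw [s35nf_norm_iota_beta M q]
    exact s35nf_rel_beta M q hrel
  · exact s35nat_rep_push (heckeBetaBar QBar M q) (gff_beta_integral M q)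
      (gff_beta_finite M q) (s35nat_beta_normFormula M q) hf hrep

end TwoLevels

end Fermat.Agent.S35
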