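/-
S35 / Program T, leaf NAT (helper22), file 8: **the Kummer box** `S35asmKummerBox` of helper2's top
wiring (`S35/Asm.lean`) as a THEOREM.

* `s35nat_pt_one` : the point attached to the trivial character is `0`;
* `s35nat_theta_family` : the family `Θ_n` of `gad_theta_family` with its characterisation
  `GktfPt` (ONE `Θ` for all clauses);
* `s35nat_conjW_comp` : the two Atkin-Lehner conjugations (mine, `s35natConjW`, and main's
  `s35newWHom D`) agree on characters;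
* `s35nat_hNat` : a character killing the old classes `s35newPEq M` (helper13) has a NEW Kummer class;
* `s35nat_kummerBox` : `S35asmKummerBox M S O' (iota.comp chig.rangeRestrict)` for a newform `g`.
-/
import Fermat.Agent.S35.Nat.PushB
import Fermat.Agent.S35.New.Box
import Fermat.Agent.S35.New.Bridge
import Fermat.Agent.S35.New.ConjW
import Fermat.Agent.S35.Asm

set_option autoImplicit false
set_option linter.unusedSectionVars false
set_option linter.unusedVariables false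
set_option linter.style.haveILetI false
set_option synthInstance.maxHeartbeats 400000

noncomputable section

namespace Fermat.Agent.S35

open UpperHalfPlane ModularCurve AlgebraicCurve CongruenceSubgroup Fermat.Agent.S24
  Fermat.Agent.G Fermat.Agent.S23 Fermat.Agent.S16LB Fermat.Agent.S41
open scoped MatrixGroups

/-! ### the trivial character -/

theorem s35nat_pt_one_zero (N : ℕ) [NeZero N] {n : ℕ} (hn : 0 < n) : GktfPt N n 1 0 := by
  refine ⟨1, one_ne_zero, ?_, ⟨0, ?_, ?_⟩⟩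
  · have h := gkm_rel_pow_self (N := N) hn (one_ne_zero : (1 : gfcField N) ≠ 0)
    rwa [one_pow, ← map_one (gdqIota N)] at h
  · rfl
  · intro P
    rw [P.ord_one]
    simp

/-- the point attached to the trivial character is `0`. -/
theorem s35nat_pt_one {N : ℕ} [NeZero N] {n : ℕ} (hn : 0 < n) {P : JZero N}
    (h : GktfPt N n 1 P) : P = 0 :=
  gktf_pt_unique hn hn h (s35nat_pt_one_zero N hn)

/-! ### the family with its characterisation -/

/-- **the Kummer family** of `gad_theta_family`, with the characterisation of its values. -/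
theorem s35nat_theta_family (N : ℕ) [NeZero N] :
    ∃ Θ : ∀ n : ℕ, gasmPEHoms N (ZMod n) →+ JZero N,
      (∀ n : ℕ, 0 < n → Function.Injective (Θ n)) ∧
      (∀ n : ℕ, 0 < n → ∀ (ℓ : ℕ) [Fact ℓ.Prime] (hℓN : ¬ ℓ ∣ N) (_ : ¬ ℓ ∣ n)
        (χ χ' : gasmPEHoms N (ZMod n)),
        (χ' : s16lbAb N →+ ZMod n) = (χ : s16lbAb N →+ ZMod n).comp (gasmTr N ℓ hℓN) →
          Θ n χ' = heckeOperatorBar N ⟨ℓ, Fact.out⟩ (Θ n χ)) ∧
      (∀ n d : ℕ, 0 < n → 0 < d → ∀ (a : gasmPEHoms N (ZMod n))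
        (b : gasmPEHoms N (ZMod (n * d))),
        (∀ x : s16lbAb N, ∃ k : ℤ, (a : s16lbAb N →+ ZMod n) x = (k : ZMod n) ∧
          (b : s16lbAb N →+ ZMod (n * d)) x = ((d * k : ℤ) : ZMod (n * d))) →
          Θ (n * d) b = Θ n a) ∧
      (∀ (n : ℕ) [NeZero n] (χ : gasmPEHoms N (ZMod n)),
        GktfPt N n (gkcChar n (χ : s16lbAb N →+ ZMod n)) (Θ n χ)) := by
  classical
  obtain ⟨Θ, hinj, -, hpt, hhecke, hcompat⟩ := gktf_family N
  let Θ' : ∀ n : ℕ, gasmPEHoms N (ZMod n) →+ JZero N := fun n =>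
    if h : n = 0 then 0 else @Θ n ⟨h⟩
  have hΘ' : ∀ (n : ℕ) (h : n ≠ 0), Θ' n = @Θ n ⟨h⟩ := fun n h => dif_neg h
  refine ⟨Θ', ?_, ?_, ?_, ?_⟩
  · intro n hn
    rw [hΘ' n hn.ne']
    exact @hinj n ⟨hn.ne'⟩
  · intro n hn ℓ _ hℓN _ χ χ' hχ
    rw [hΘ' n hn.ne']
    exact @hhecke n ⟨hn.ne'⟩ ℓ _ hℓN χ χ' hχ
  · intro n d hn hd a b hab
    have hnd : n * d ≠ 0 := Nat.mul_ne_zero hn.ne' hd.ne'
    rw [hΘ' n hn.ne', hΘ' (n * d) hnd]
    haveI : NeZero n := ⟨hn.ne'⟩
    haveI : NeZero d := ⟨hd.ne'⟩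
    refine @hcompat (n * d) n ⟨hnd⟩ ⟨hn.ne'⟩ b a ?_
    exact gadtf_gkcChar_eq n d _ _ hab
  · intro n hn χ
    rw [hΘ' n (NeZero.ne n)]
    exact hpt n χ

/-! ### characters killing the old classes -/

/-- `k ↦ exp(2πi k/n)` as an additive homomorphism into `Additive ℂˣ`. -/
def s35natExp (n : ℕ) [NeZero n] : ZMod n →+ Additive ℂˣ :=
  MonoidHom.toAdditiveRight ((ZMod.stdAddChar (N := n)).toMonoidHom.toHomUnits)

theorem s35natExp_gkcChar {N : ℕ} (n : ℕ) [NeZero n] (x : s16lbAb N →+ ZMod n) (c : Gamma0 N) :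
    Additive.ofMul (gkcChar n x c) = s35natExp n (x (s16lbCls N (Additive.ofMul c))) :=
  congrArg Additive.ofMul (Units.ext rfl)

/-- **(NAT, vanishing half)**: a character killing the old classes `s35newPEq M` has a new Kummer
class. -/
theorem s35nat_hNat {M : ℕ} [NeZero M] (Θ : ∀ n : ℕ, gasmPEHoms M (ZMod n) →+ JZero M)
    (hpt : ∀ (n : ℕ) [NeZero n] (χ : gasmPEHoms M (ZMod n)),
      GktfPt M n (gkcChar n (χ : s16lbAb M →+ ZMod n)) (Θ n χ))
    (n : ℕ) (hn : 0 < n) (χ₁ : gasmPEHoms M (ZMod n))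
    (hkill : ∀ s ∈ s35newPEq M, (χ₁ : s16lbAb M →+ ZMod n) s = 0) :
    Θ n χ₁ ∈ s35asmNew M := by
  haveI : NeZero n := ⟨hn.ne'⟩
  rw [mem_s35asmNew]
  intro M' q h hq hM' hqM'
  haveI : NeZero M' := ⟨hM'⟩
  haveI : NeZero q := ⟨hq.ne_zero⟩
  haveI : Fact q.Prime := ⟨hq⟩
  subst h
  rw [s35asmCast_rfl, mem_s35asmNewAt]
  obtain ⟨D⟩ := s41hk_exists_AL M' q hqM'
  have hk := (s35new_kills_PEq_iff (χ₁ : s16lbAb (M' * q) →+ ZMod n)).mp hkill M' q rfl D
  rw [s35newCast_rfl, AddMonoidHom.id_comp, AddMonoidHom.id_comp] at hk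
  have hP := hpt n χ₁
  constructor
  · have h1 := s35nat_pt_pushA M' q hP
    have h2 : (s35natTransfer (gkcChar n (χ₁ : s16lbAb (M' * q) →+ ZMod n)) :
        Gamma0 M' →* ℂˣ) = 1 :=
      MonoidHom.ext fun γ => s35new_natTransfer_eq_one D
        ((s35natExp n).comp (χ₁ : s16lbAb (M' * q) →+ ZMod n))
        (by rw [AddMonoidHom.comp_assoc, hk.1, AddMonoidHom.comp_zero]) _
        (fun c => s35natExp_gkcChar n _ c) γ
    rw [h2] at h1
    exact s35nat_pt_one hn h1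
  · have h1 := s35nat_pt_pushB M' q hq hqM' hP
    have h2 : (s35natTransfer ((gkcChar n (χ₁ : s16lbAb (M' * q) →+ ZMod n)).comp
        (s35natConjW M' q hq hqM')) : Gamma0 M' →* ℂˣ) = 1 := by
      rw [s35new_conjW_comp M' q hq hqM' D]
      exact MonoidHom.ext fun γ => s35new_natTransfer_W_eq_one D
        ((s35natExp n).comp (χ₁ : s16lbAb (M' * q) →+ ZMod n))
        (by rw [AddMonoidHom.comp_assoc, hk.2, AddMonoidHom.comp_zero]) _
        (fun c => s35natExp_gkcChar n _ c) γ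
    rw [h2] at h1
    exact s35nat_pt_one hn h1

/-! ### the box -/

/-- **the Kummer box (K) of S35**: `Θ` := the Kummer family, `PEq` := the old classes `s35newPEq M`,
NAT := `s35nat_hNat`, NEW-0 := helper13's `s35new_hNew0`. -/
theorem s35nat_kummerBox {M : ℕ} [NeZero M] {g : CuspForm (Gamma0 M) 2} (hg : g.IsNewform)
    (S : Finset ℕ) (O' : Type) [CommRing O'] [IsDomain O'] [CharZero O']
    (chig : CuspForm.heckeAlgebra M 2 (↑S : Set ℕ) →+* ℂ)
    (hchig : ∀ (ℓ : ℕ) (hℓ : ℓ.Prime) (hℓM : ¬ ℓ ∣ M) (hℓS : ℓ ∉ (↑S : Set ℕ)),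
      chig (CuspForm.heckeAlgebra.T hℓ hℓM hℓS) = ModularFormClass.qCoeff ⇑g ℓ)
    (iota : chig.range →+* O') :
    S35asmKummerBox M S O' (iota.comp chig.rangeRestrict) (s35asmNew M) := by
  obtain ⟨Θ, hinj, hhecke, hcompat, hpt⟩ := s35nat_theta_family M
  exact ⟨Θ, hinj, hhecke, hcompat, s35newPEq M, s35nat_hNat Θ hpt,
    s35new_hNew0 hg S O' chig hchig iota⟩

end Fermat.Agent.S35
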