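/-
S35 / S36, leaf NAT (helper22), file 13: **the GENERIC Kummer box**: for ANY family `P` of factorisations
`M = M' * q` and ANY set `PEq` of classes, if the characters killing `PEq` have trivial transfers

  `s35natTransfer (gkcChar n χ₁)`   (α-side)   and   `s35nfTransfer M' q (gkcChar n χ₁)`   (φ-side)

for all factorisations in `P`, then (NAT, all `M', q`: `s35nat_pt_pushA`, `s35nf_pt_pushB`) the Kummer
classes `Θ n χ₁` lie in `s35asmNewP P M`; with NEW-0 for `PEq` this is `S35asmKummerBox … (s35asmNewP P M)`.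

* `s35nf_hNat`          : the NAT clause;
* `s35nf_kummerBox_of`  : the box.
-/
import Fermat.Agent.S35.Nat.PushF
import Fermat.Agent.S35.Nat.Box

set_option autoImplicit false
set_option linter.unusedSectionVars false
set_option linter.unusedVariables false
set_option linter.style.haveILetI false
set_option synthInstance.maxHeartbeats 400000

noncomputable section

namespace Fermat.Agent.S35

open UpperHalfPlane ModularCurve AlgebraicCurve CongruenceSubgroup Fermat.Agent.S24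
  Fermat.Agent.G Fermat.Agent.S23 Fermat.Agent.S16LB Fermat.Agent.S41
open scoped MatrixGroups

/-- the two transfers of the character `exp(2πi χ₁/n)` along a factorisation `M' * q = M` are
trivial. -/
def S35nfTriv {M : ℕ} (n : ℕ) [NeZero n] (χ₁ : s16lbAb M →+ ZMod n) (M' q : ℕ) [NeZero M']
    [NeZero q] (h : M' * q = M) : Prop :=
  (∀ γ : Gamma0 M', s35natTransfer (gkcChar n (χ₁.comp (s35newCast h))) γ = 1) ∧
    ∀ γ : Gamma0 M', s35nfTransfer M' q (gkcChar n (χ₁.comp (s35newCast h))) γ = 1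

/-- **(NAT, vanishing half), generic**: trivial transfers along all factorisations in `P` ⟹ the Kummer
class lies in `s35asmNewP P M`. -/
theorem s35nf_hNat {M : ℕ} [NeZero M] (P : ℕ → ℕ → Prop)
    (Θ : ∀ n : ℕ, gasmPEHoms M (ZMod n) →+ JZero M)
    (hpt : ∀ (n : ℕ) [NeZero n] (χ : gasmPEHoms M (ZMod n)),
      GktfPt M n (gkcChar n (χ : s16lbAb M →+ ZMod n)) (Θ n χ))
    (n : ℕ) [NeZero n] (χ₁ : gasmPEHoms M (ZMod n))
    (htriv : ∀ (M' q : ℕ) [NeZero M'] [NeZero q] (h : M' * q = M), q.Prime → P M' q →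
      S35nfTriv n (χ₁ : s16lbAb M →+ ZMod n) M' q h) :
    Θ n χ₁ ∈ s35asmNewP P M := by
  have hn : 0 < n := NeZero.pos n
  rw [mem_s35asmNewP]
  intro M' q h hq hM' hP
  haveI : NeZero M' := ⟨hM'⟩
  haveI : NeZero q := ⟨hq.ne_zero⟩
  obtain ⟨hA, hB⟩ := htriv M' q h.symm hq hP
  subst h
  rw [s35asmCast_rfl, mem_s35asmNewAt]
  rw [s35newCast_rfl, AddMonoidHom.comp_id] at hA hB
  have hP' := hpt n χ₁
  constructor
  · have h1 := s35nat_pt_pushA M' q hP'
    have h2 : (s35natTransfer (gkcChar n (χ₁ : s16lbAb (M' * q) →+ ZMod n)) :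
        Gamma0 M' →* ℂˣ) = 1 := MonoidHom.ext hA
    rw [h2] at h1
    exact s35nat_pt_one hn h1
  · have h1 := s35nf_pt_pushB M' q hP'
    have h2 : s35nfTransfer M' q (gkcChar n (χ₁ : s16lbAb (M' * q) →+ ZMod n)) = 1 :=
      MonoidHom.ext hB
    rw [h2] at h1
    exact s35nat_pt_one hn h1

/-- **the generic Kummer box.** -/
theorem s35nf_kummerBox_of {M : ℕ} [NeZero M] (S : Finset ℕ) (O' : Type) [CommRing O']
    (χ : CuspForm.heckeAlgebra M 2 (↑S : Set ℕ) →+* O') (P : ℕ → ℕ → Prop)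
    (PEq : Set (s16lbAb M))
    (htriv : ∀ (n : ℕ) [NeZero n] (χ₁ : s16lbAb M →+ ZMod n), (∀ s ∈ PEq, χ₁ s = 0) →
      ∀ (M' q : ℕ) [NeZero M'] [NeZero q] (h : M' * q = M), q.Prime → P M' q →
        S35nfTriv n χ₁ M' q h)
    (hNew0 : ∃ ω : s16lbAb M →+ FractionRing O', ω ≠ 0 ∧ (∀ s ∈ gadwPE M ∪ PEq, ω s = 0) ∧
      ∀ (ℓ : ℕ) [Fact ℓ.Prime] (hℓM : ¬ ℓ ∣ M) (hℓS : ℓ ∉ (↑S : Set ℕ)),
        ω.comp (gasmTr M ℓ hℓM) =
          ((algebraMap O' (FractionRing O')).comp χ)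
            (CuspForm.heckeAlgebra.T Fact.out hℓM hℓS) • ω) :
    S35asmKummerBox M S O' χ (s35asmNewP P M) := by
  obtain ⟨Θ, hinj, hhecke, hcompat, hpt⟩ := s35nat_theta_family M
  refine ⟨Θ, hinj, hhecke, hcompat, PEq, ?_, hNew0⟩
  intro n hn χ₁ hkill
  haveI : NeZero n := ⟨hn.ne'⟩
  exact s35nf_hNat P Θ hpt n χ₁ (htriv n (χ₁ : s16lbAb M →+ ZMod n) hkill)

end Fermat.Agent.S35
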