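/-
S35 / S36, leaf NAT (helper22), file 14: **the Kummer box (K) of S36**
`S35asmKummerBox M S O' (iota.comp chig.rangeRestrict) (s35asmNewP S35asmSq M)` (factorisations
`M = M' * q` with `q ∣ M'`, `q² ∤ M'`) as a THEOREM:

generic box `s35nf_kummerBox_of` (NAT for all `M', q`) + helper13's group side `S35/NewQ/*`
(`s35qPEq`, `s35q_kills_PEq_iff`, `s35q_natTransfer_eq_one`, the Fricke bridge
`s35q_frTransfer_eq_one`, `s35q_hNew0`).
-/
import Fermat.Agent.S35.Nat.BoxGen
import Fermat.Agent.S35.NewQ.Main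
import Fermat.Agent.S35.NewQ.Fricke

set_option autoImplicit false
set_option linter.unusedSectionVars false
set_option linter.unusedVariables false
set_option linter.style.haveILetI false
set_option synthInstance.maxHeartbeats 400000

noncomputable section

namespace Fermat.Agent.S35

open UpperHalfPlane ModularCurve AlgebraicCurve CongruenceSubgroup Fermat.Agent.S24
  Fermat.Agent.G Fermat.Agent.S23 Fermat.Agent.S16LB Fermat.Agent.S41
open scoped MatrixGroups

/-- the characters killing the old classes of the second kind have trivial transfers. -/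
theorem s35nf_trivQ {M : ℕ} (n : ℕ) [NeZero n] (χ₁ : s16lbAb M →+ ZMod n)
    (hkill : ∀ s ∈ s35qPEq M, χ₁ s = 0) (M' q : ℕ) [NeZero M'] [NeZero q] (h : M' * q = M)
    (hq : q.Prime) (hP : S35asmSq M' q) : S35nfTriv n χ₁ M' q h := by
  haveI : Fact q.Prime := ⟨hq⟩
  obtain ⟨hVa, hVb⟩ := (s35q_kills_PEq_iff χ₁).mp hkill M' q h hP.1
  constructor
  · intro γ
    exact s35q_natTransfer_eq_one ((s35natExp n).comp (χ₁.comp (s35newCast h)))
      (by rw [AddMonoidHom.comp_assoc, AddMonoidHom.comp_assoc, hVa, AddMonoidHom.comp_zero]) _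
      (fun c => s35natExp_gkcChar n _ c) γ
  · intro γ
    rw [s35nfTransfer_apply]
    exact s35q_frTransfer_eq_one M' q hP.1 ((s35natExp n).comp (χ₁.comp (s35newCast h)))
      (by rw [AddMonoidHom.comp_assoc, AddMonoidHom.comp_assoc, hVb, AddMonoidHom.comp_zero]) _
      (fun c => s35natExp_gkcChar n _ c) γ

/-- **the Kummer box (K) of S36.** -/
theorem s35nf_kummerBoxQ {M : ℕ} [NeZero M] {g : CuspForm (Gamma0 M) 2} (hg : g.IsNewform)
    (S : Finset ℕ) (O' : Type) [CommRing O'] [IsDomain O'] [CharZero O']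
    (chig : CuspForm.heckeAlgebra M 2 (↑S : Set ℕ) →+* ℂ)
    (hchig : ∀ (ℓ : ℕ) (hℓ : ℓ.Prime) (hℓM : ¬ ℓ ∣ M) (hℓS : ℓ ∉ (↑S : Set ℕ)),
      chig (CuspForm.heckeAlgebra.T hℓ hℓM hℓS) = ModularFormClass.qCoeff ⇑g ℓ)
    (iota : chig.range →+* O') :
    S35asmKummerBox M S O' (iota.comp chig.rangeRestrict) (s35asmNewP S35asmSq M) :=
  s35nf_kummerBox_of S O' _ S35asmSq (s35qPEq M)
    (fun n _ χ₁ hkill M' q _ _ h hq hP => s35nf_trivQ n χ₁ hkill M' q h hq hP)
    (s35q_hNew0 hg S O' chig hchig iota)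

end Fermat.Agent.S35
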